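import Mathlib

/-!
# Normalised primitives of cuspidal periodic functions on the upper half plane
-/

set_option autoImplicit false

open UpperHalfPlane hiding I
open Complex Filter Topology Function
open scoped Manifold MatrixGroups ModularForm Real

noncomputable section

namespace Fermat.Agent.H16

local notation "𝕢" => Function.Periodic.qParam

/-- `F` is the primitive of `g` on the upper half plane that vanishes at `i∞` along every vertical
line. -/
structure IsPrim (g F : ℍ → ℂ) : Prop where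
  deriv : ∀ τ : ℍ, HasDerivAt (F ∘ ofComplex) (g τ) τ
  lim : ∀ x : ℝ, Tendsto (fun y : ℝ ↦ (F ∘ ofComplex) (x + y * I)) atTop (𝓝 0)

theorem ofComplex_eq {z : ℂ} (hz : 0 < z.im) : (ofComplex z : ℂ) = z := by
  rw [ofComplex_apply_of_im_pos hz]

/-- Two functions on `ℍ` with the same derivative differ by a constant. -/
theorem exists_const_of_deriv_eq {F G g : ℍ → ℂ}
    (hF : ∀ τ : ℍ, HasDerivAt (F ∘ ofComplex) (g τ) τ)
    (hG : ∀ τ : ℍ, HasDerivAt (G ∘ ofComplex) (g τ) τ) (τ τ' : ℍ) :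
    F τ - G τ = F τ' - G τ' := by
  have hconv : Convex ℝ upperHalfPlaneSet := by
    have := convex_halfSpace_im_gt 0
    exact this
  have key : ∀ z ∈ upperHalfPlaneSet,
      HasDerivWithinAt ((F ∘ ofComplex) - (G ∘ ofComplex)) 0 upperHalfPlaneSet z := by
    intro z hz
    have h1 := (hF ⟨z, hz⟩).sub (hG ⟨z, hz⟩)
    rw [sub_self] at h1
    exact h1.hasDerivWithinAt
  have h2 := hconv.is_const_of_fderivWithin_eq_zero (𝕜 := ℂ)
    (f := (F ∘ ofComplex) - (G ∘ ofComplex))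
    (fun z hz ↦ (key z hz).differentiableWithinAt)
    (fun z hz ↦ by
      have := (key z hz).hasFDerivWithinAt.fderivWithin
        (isOpen_upperHalfPlaneSet.uniqueDiffWithinAt hz)
      rw [this]; ext; simp) τ.2 τ'.2
  simpa using h2

namespace IsPrim

theorem unique {g F G : ℍ → ℂ} (hF : IsPrim g F) (hG : IsPrim g G) : F = G := by
  funext τ
  have h1 : ∀ᶠ y : ℝ in atTop,
      (F ∘ ofComplex) (τ.re + y * I) - (G ∘ ofComplex) (τ.re + y * I) = F τ - G τ := by
    filter_upwards [eventually_gt_atTop 0] with y hy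
    exact exists_const_of_deriv_eq hF.deriv hG.deriv _ _
  have h2 := (hF.lim τ.re).sub (hG.lim τ.re)
  rw [sub_self] at h2
  have h3 : Tendsto (fun _ : ℝ ↦ F τ - G τ) atTop (𝓝 0) := h2.congr' h1
  have h4 := tendsto_nhds_unique h3 tendsto_const_nhds
  exact (sub_eq_zero.mp h4.symm)

theorem zero : IsPrim 0 0 where
  deriv τ := hasDerivAt_const (τ : ℂ) (0 : ℂ)
  lim x := by simp

theorem add {g F g' F' : ℍ → ℂ} (h : IsPrim g F) (h' : IsPrim g' F') : IsPrim (g + g') (F + F') where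
  deriv τ := by simpa using! (h.deriv τ).add (h'.deriv τ)
  lim x := by simpa using! (h.lim x).add (h'.lim x)

theorem neg {g F : ℍ → ℂ} (h : IsPrim g F) : IsPrim (-g) (-F) where
  deriv τ := by simpa using! (h.deriv τ).neg
  lim x := by simpa using! (h.lim x).neg

theorem sub {g F g' F' : ℍ → ℂ} (h : IsPrim g F) (h' : IsPrim g' F') : IsPrim (g - g') (F - F') := by
  rw [sub_eq_add_neg, sub_eq_add_neg]; exact h.add h'.neg

theorem smul {g F : ℍ → ℂ} (c : ℂ) (h : IsPrim g F) : IsPrim (c • g) (c • F) where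
  deriv τ := by simpa using! (h.deriv τ).const_mul c
  lim x := by simpa using! (h.lim x).const_mul c

theorem sum {ι : Type*} (s : Finset ι) {g F : ι → ℍ → ℂ} (h : ∀ i ∈ s, IsPrim (g i) (F i)) :
    IsPrim (∑ i ∈ s, g i) (∑ i ∈ s, F i) := by
  classical
  induction s using Finset.induction_on with
  | empty => simpa using zero
  | insert a s ha ih =>
    rw [Finset.sum_insert ha, Finset.sum_insert ha]
    exact (h a (Finset.mem_insert_self _ _)).add
      (ih fun i hi ↦ h i (Finset.mem_insert_of_mem hi))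

end IsPrim

/-- The derivative of `τ ↦ F (γ • τ)` where `F' = g` is the weight two slash of `g`. -/
theorem hasDerivAt_comp_smul {F g : ℍ → ℂ} (hF : ∀ τ : ℍ, HasDerivAt (F ∘ ofComplex) (g τ) τ)
    {γ : GL (Fin 2) ℝ} (hγ : 0 < γ.det.val) (τ : ℍ) :
    HasDerivAt ((fun w : ℍ ↦ F (γ • w)) ∘ ofComplex) ((g ∣[(2 : ℤ)] γ) τ) τ := by
  have hγ' : 0 < (γ.val).det := by simpa using hγ
  have h1 := (hasStrictDerivAt_smul hγ' τ).hasDerivAt
  have h2 : HasDerivAt (F ∘ ofComplex) (g (γ • τ)) ((γ • ofComplex (τ : ℂ) : ℍ) : ℂ) := by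
    rw [ofComplex_apply]; exact hF (γ • τ)
  have h3 := h2.comp (τ : ℂ) h1
  have h4 : (fun w : ℂ ↦ F (γ • ofComplex w)) =
      (F ∘ ofComplex) ∘ (fun z : ℂ ↦ ((γ • ofComplex z : ℍ) : ℂ)) := by
    funext w; simp [Function.comp]
  have h5 : (g ∣[(2 : ℤ)] γ) τ = g (γ • τ) * ((γ.val.det : ℝ) / denom γ τ ^ 2) := by
    rw [ModularForm.slash_apply]
    have hσ (x) : σ γ x = x := by
      rw [UpperHalfPlane.σ, if_pos hγ]; rfl
    rw [hσ, abs_of_pos hγ]
    simp only [Matrix.GeneralLinearGroup.val_det_apply]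
    rw [show (2 : ℤ) - 1 = 1 by norm_num, zpow_one]
    rw [show (-2 : ℤ) = -((2 : ℕ) : ℤ) by norm_num, zpow_neg, zpow_natCast]
    field_simp
  change HasDerivAt (fun w : ℂ ↦ F (γ • ofComplex w)) _ _
  rw [h4, h5]
  exact h3


theorem IsPrim.smul_upper {F g : ℍ → ℂ} (hF : IsPrim g F)
    {γ : GL (Fin 2) ℝ} (hγ : 0 < γ.det.val) (h10 : γ 1 0 = 0) :
    IsPrim (g ∣[(2 : ℤ)] γ) (fun w : ℍ ↦ F (γ • w)) where
  deriv := hasDerivAt_comp_smul hF.deriv hγ
  lim x := by
    have hdet : 0 < γ 0 0 * γ 1 1 := by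
      have : γ.det.val = γ 0 0 * γ 1 1 := by
        rw [Matrix.GeneralLinearGroup.val_det_apply, Matrix.det_fin_two, h10, mul_zero, sub_zero]
      rwa [this] at hγ
    have h11 : γ 1 1 ≠ 0 := fun h ↦ by rw [h, mul_zero] at hdet; exact lt_irrefl _ hdet
    have hpos : 0 < γ 0 0 / γ 1 1 := by
      have : γ 0 0 / γ 1 1 = (γ 0 0 * γ 1 1) / (γ 1 1) ^ 2 := by field_simp
      rw [this]; positivity
    have h1 := hF.lim ((γ 0 0 * x + γ 0 1) / γ 1 1)
    have h2 : Tendsto (fun y : ℝ ↦ γ 0 0 / γ 1 1 * y) atTop atTop :=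
      tendsto_id.const_mul_atTop hpos
    refine (h1.comp h2).congr' ?_
    filter_upwards [eventually_gt_atTop 0] with y hy
    simp only [Function.comp_apply]
    congr 1
    have hy' : 0 < ((x : ℂ) + y * I).im := by simpa using hy
    apply UpperHalfPlane.ext
    have hy'' : 0 < ((((γ 0 0 * x + γ 0 1) / γ 1 1 : ℝ) : ℂ) +
        ((γ 0 0 / γ 1 1 * y : ℝ) : ℂ) * I).im := by
      simp only [add_im, ofReal_im, mul_im, ofReal_re, Complex.I_im, mul_one, Complex.I_re,
        mul_zero, add_zero, zero_add]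
      positivity
    rw [ofComplex_eq hy'', UpperHalfPlane.coe_smul_of_det_pos hγ]
    simp only [UpperHalfPlane.num, UpperHalfPlane.denom, ofComplex_eq hy', h10]
    clear hy'' hpos hdet h1 h2
    generalize γ 1 1 = d at *
    generalize γ 0 0 = a at *
    generalize γ 0 1 = b at *
    have h11' : (d : ℂ) ≠ 0 := by exact_mod_cast h11
    push_cast
    rw [zero_mul, zero_add, eq_div_iff h11']
    field_simp
    ring

/-- `g` has a normalised primitive. -/
def HasPrim (g : ℍ → ℂ) : Prop := ∃ F : ℍ → ℂ, IsPrim g F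

open Classical in
/-- The normalised primitive (or `0`). -/
def prim (g : ℍ → ℂ) : ℍ → ℂ := if h : HasPrim g then h.choose else 0

theorem HasPrim.isPrim {g : ℍ → ℂ} (h : HasPrim g) : IsPrim g (prim g) := by
  rw [prim, dif_pos h]; exact h.choose_spec

theorem IsPrim.hasPrim {g F : ℍ → ℂ} (h : IsPrim g F) : HasPrim g := ⟨F, h⟩

theorem IsPrim.prim_eq {g F : ℍ → ℂ} (h : IsPrim g F) : prim g = F :=
  h.hasPrim.isPrim.unique h

/-! ### Cuspidal functions -/

/-- Holomorphic functions on `ℍ` with an integral period, vanishing at `i∞`. -/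
structure Cuspidal (f : ℍ → ℂ) : Prop where
  holo : MDiff f
  per : ∃ n : ℕ, 0 < n ∧ Periodic (f ∘ ofComplex) (n : ℝ)
  zero : IsZeroAtImInfty f

theorem periodic_comp_ofComplex_of {f : ℍ → ℂ} {h : ℝ}
    (H : ∀ τ : ℍ, ∀ hw : 0 < ((τ : ℂ) + h).im, f ⟨(τ : ℂ) + h, hw⟩ = f τ) :
    Periodic (f ∘ ofComplex) h := by
  intro w
  by_cases! hw : 0 < im w
  · have h2 : 0 < im (w + h) := by simp [hw]
    simp only [comp_apply, ofComplex_apply_of_im_pos h2, ofComplex_apply_of_im_pos hw]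
    exact H ⟨w, hw⟩ h2
  · have h2 : im (w + h) ≤ 0 := by simpa using hw
    simp [ofComplex_apply_of_im_nonpos h2, ofComplex_apply_of_im_nonpos hw]

namespace Cuspidal

theorem exists_prim {f : ℍ → ℂ} (hf : Cuspidal f) :
    ∃ F : ℍ → ℂ, Cuspidal F ∧ ∀ τ : ℍ, HasDerivAt (F ∘ ofComplex) (f τ) τ := by
  obtain ⟨n, hn, hper⟩ := hf.per
  have hh : (0 : ℝ) < n := by exact_mod_cast hn
  set G := cuspFunction n f with hG
  have hbdd : IsBoundedAtImInfty f := hf.zero.isBoundedAtImInfty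
  have hGdiff : DifferentiableOn ℂ G (Metric.ball 0 1) :=
    differentiableOn_cuspFunction_ball hh hper hf.holo hbdd
  have hG0 : G 0 = 0 := hf.zero.cuspFunction_apply_zero hh
  have hball : Metric.ball (0 : ℂ) 1 ∈ 𝓝 (0 : ℂ) := Metric.ball_mem_nhds _ one_pos
  have hds : DifferentiableOn ℂ (dslope G 0) (Metric.ball 0 1) :=
    (Complex.differentiableOn_dslope hball).mpr hGdiff
  obtain ⟨H, hH0, hH⟩ := hds.isExactOn_ball.with_val_at 0 0
  set c : ℂ := (n : ℝ) / (2 * π * I) with hc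
  let F : ℍ → ℂ := fun τ ↦ c * H (𝕢 n τ)
  have hq : ∀ τ : ℍ, 𝕢 n τ ∈ Metric.ball (0 : ℂ) 1 := fun τ ↦ by
    simpa using Periodic.norm_qParam_lt_one hh τ.im_pos
  have hderiv : ∀ τ : ℍ, HasDerivAt (F ∘ ofComplex) (f τ) τ := by
    intro τ
    have h1 : HasDerivAt H (dslope G 0 (𝕢 n τ)) (𝕢 n τ) := hH _ (hq τ)
    have h2 : HasDerivAt (𝕢 (n : ℝ)) (𝕢 n τ * (2 * π * I / (n : ℝ))) τ := by
      simpa only [Periodic.qParam, id_eq, mul_one] using!
        (((hasDerivAt_id (τ : ℂ)).const_mul (2 * π * I)).div_const ((n : ℝ) : ℂ)).cexp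
    have h3 := (h1.comp (τ : ℂ) h2).const_mul c
    have h4 : c * (dslope G 0 (𝕢 n τ) * (𝕢 n τ * (2 * π * I / (n : ℝ)))) = f τ := by
      have hq0 : 𝕢 n τ ≠ 0 := exp_ne_zero _
      have hGq : G (𝕢 n τ) = f τ := eq_cuspFunction τ hh.ne' hper
      rw [dslope_of_ne _ hq0, slope_def_field, hG0, sub_zero, sub_zero, hGq]
      have h5 : ((n : ℝ) : ℂ) ≠ 0 := by exact_mod_cast hh.ne'
      have h6 : (2 * π * I : ℂ) ≠ 0 := two_pi_I_ne_zero
      rw [hc]
      field_simp
    rw [h4] at h3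
    refine h3.congr_of_eventuallyEq ?_
    filter_upwards [isOpen_upperHalfPlaneSet.mem_nhds τ.im_pos] with w hw
    simp only [F, Function.comp_apply, ofComplex_eq hw]
  refine ⟨F, ⟨?_, ⟨n, hn, ?_⟩, ?_⟩, hderiv⟩
  · intro τ
    exact UpperHalfPlane.mdifferentiableAt_iff.mpr (hderiv τ).differentiableAt
  · apply periodic_comp_ofComplex_of
    intro τ hw
    simp only [F]
    congr 2
    simp only [Periodic.qParam]
    rw [show 2 * (π : ℂ) * I * ((τ : ℂ) + ((n : ℝ) : ℂ)) / ((n : ℝ) : ℂ) =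
      2 * π * I * τ / ((n : ℝ) : ℂ) + 2 * π * I from by
        have h5 : ((n : ℝ) : ℂ) ≠ 0 := by exact_mod_cast hh.ne'
        field_simp]
    exact Complex.exp_periodic _
  · have h1 : ContinuousAt H 0 := (hH 0 (Metric.mem_ball_self one_pos)).continuousAt
    have h2 : Tendsto (fun τ : ℍ ↦ H (𝕢 n τ)) atImInfty (𝓝 0) := by
      have := h1.tendsto.comp (qParam_tendsto_atImInfty hh)
      rwa [hH0] at this
    have h3 := h2.const_mul c
    rw [mul_zero] at h3
    exact h3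

theorem tendsto_vertical_pow {f : ℍ → ℂ} (hf : Cuspidal f) (n : ℕ) (w : ℂ) (x : ℝ) :
    Tendsto (fun y : ℝ ↦ (x + y * I - w) ^ n * (f ∘ ofComplex) (x + y * I)) atTop (𝓝 0) := by
  obtain ⟨N, hN, hper⟩ := hf.per
  have hh : (0 : ℝ) < N := by exact_mod_cast hN
  have hbdd : IsBoundedAtImInfty f := hf.zero.isBoundedAtImInfty
  have h1 := hf.zero.exp_decay_atImInfty hh hper hf.holo hbdd
  have ht : Tendsto (fun y : ℝ ↦ ofComplex (x + y * I)) atTop atImInfty := by
    rw [atImInfty, tendsto_comap_iff]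
    refine tendsto_id.congr' ?_
    filter_upwards [eventually_gt_atTop 0] with y hy
    have hy' : 0 < ((x : ℂ) + y * I).im := by simpa using hy
    rw [Function.comp_apply, ofComplex_apply_of_im_pos hy']
    simp [UpperHalfPlane.im]
  have h2 := h1.comp_tendsto ht
  have h3 : (fun y : ℝ ↦ (x + y * I - w) ^ n) =O[atTop] (fun y : ℝ ↦ y ^ n) := by
    apply Asymptotics.IsBigO.pow
    have h4 : (fun y : ℝ ↦ (x : ℂ) - w) =O[atTop] (fun y : ℝ ↦ y) :=
      (Asymptotics.isLittleO_const_id_atTop ((x : ℂ) - w)).isBigO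
    have h5 : (fun y : ℝ ↦ (y : ℂ) * I) =O[atTop] (fun y : ℝ ↦ y) := by
      apply Asymptotics.IsBigO.of_bound 1
      filter_upwards with y
      simp
    have := h5.add h4
    refine this.congr_left fun y ↦ by ring
  have h6 := h3.mul h2
  refine h6.trans_tendsto ?_
  have hc : 0 < 2 * π / N := by positivity
  have h7 := tendsto_rpow_mul_exp_neg_mul_atTop_nhds_zero n _ hc
  refine h7.congr' ?_
  filter_upwards [eventually_gt_atTop 0] with y hy
  have hy' : 0 < ((x : ℂ) + y * I).im := by simpa using hy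
  have him : (ofComplex ((x : ℂ) + y * I)).im = y := by
    rw [UpperHalfPlane.im, ofComplex_eq hy']; simp
  simp only [Function.comp_apply, him, Real.rpow_natCast]
  congr 2
  ring

theorem hasPrim {f : ℍ → ℂ} (hf : Cuspidal f) : HasPrim f := by
  obtain ⟨F, hF, hd⟩ := hf.exists_prim
  refine ⟨F, hd, fun x ↦ ?_⟩
  simpa using hF.tendsto_vertical_pow 0 0 x

theorem prim {f : ℍ → ℂ} (hf : Cuspidal f) : Cuspidal (prim f) := by
  obtain ⟨F, hF, hd⟩ := hf.exists_prim
  have : IsPrim f F := ⟨hd, fun x ↦ by simpa using hF.tendsto_vertical_pow 0 0 x⟩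
  rwa [this.prim_eq]

theorem isPrim_mul_pow {f : ℍ → ℂ} (hf : Cuspidal f) (w : ℂ) (n : ℕ)
    (hn : HasPrim (fun τ : ℍ ↦ H16.prim f τ * ((τ : ℂ) - w) ^ n)) :
    IsPrim (fun τ : ℍ ↦ f τ * ((τ : ℂ) - w) ^ (n + 1)) (fun τ : ℍ ↦ ((τ : ℂ) - w) ^ (n + 1) *
      H16.prim f τ - (n + 1) * H16.prim (fun τ : ℍ ↦ H16.prim f τ * ((τ : ℂ) - w) ^ n) τ) where
  deriv τ := by
    have h1 := hf.hasPrim.isPrim.deriv τ
    have h2 : HasDerivAt (fun z : ℂ ↦ (z - w) ^ (n + 1)) (((n + 1 : ℕ) : ℂ) * ((τ : ℂ) - w) ^ n)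
        (τ : ℂ) := by
      simpa using! ((hasDerivAt_id (τ : ℂ)).sub_const w).pow (n + 1)
    have h3 := (h2.mul h1).sub ((hn.isPrim.deriv τ).const_mul ((n : ℂ) + 1))
    have h4 : ((n + 1 : ℕ) : ℂ) * ((τ : ℂ) - w) ^ n * (H16.prim f ∘ ofComplex) τ +
        ((τ : ℂ) - w) ^ (n + 1) * f τ - ((n : ℂ) + 1) * (H16.prim f τ * ((τ : ℂ) - w) ^ n) =
        f τ * ((τ : ℂ) - w) ^ (n + 1) := by
      simp only [Function.comp_apply, ofComplex_apply]
      push_cast
      ring
    rw [h4] at h3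
    refine h3.congr_of_eventuallyEq ?_
    filter_upwards [isOpen_upperHalfPlaneSet.mem_nhds τ.im_pos] with z hz
    simp only [Function.comp_apply, Pi.mul_apply, Pi.sub_apply, ofComplex_eq hz]
  lim x := by
    have h1 := hf.prim.tendsto_vertical_pow (n + 1) w x
    have h2 := (hn.isPrim.lim x).const_mul ((n : ℂ) + 1)
    have h3 := h1.sub h2
    rw [mul_zero, sub_zero] at h3
    refine h3.congr' ?_
    filter_upwards [eventually_gt_atTop 0] with y hy
    have hy' : 0 < ((x : ℂ) + y * I).im := by simpa using hy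
    simp only [Function.comp_apply, ofComplex_eq hy']

theorem hasPrim_mul_pow {f : ℍ → ℂ} (hf : Cuspidal f) (w : ℂ) (n : ℕ) :
    HasPrim (fun τ : ℍ ↦ f τ * ((τ : ℂ) - w) ^ n) := by
  induction n generalizing f with
  | zero => simpa using hf.hasPrim
  | succ n ih => exact (hf.isPrim_mul_pow w n (ih hf.prim)).hasPrim

/-- Iterated normalised primitives. -/
theorem iterate_prim {f : ℍ → ℂ} (hf : Cuspidal f) (n : ℕ) : Cuspidal (H16.prim^[n] f) := by
  induction n generalizing f with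
  | zero => simpa using hf
  | succ n ih => rw [Function.iterate_succ_apply]; exact ih hf.prim

/-- The Eichler integral is an iterated primitive. -/
theorem prim_mul_pow_self {f : ℍ → ℂ} (hf : Cuspidal f) (n : ℕ) (z : ℍ) :
    H16.prim (fun τ : ℍ ↦ f τ * ((τ : ℂ) - z) ^ n) z =
      (-1) ^ n * (n.factorial : ℂ) * (H16.prim^[n + 1] f) z := by
  induction n generalizing f with
  | zero => simp
  | succ n ih =>
    have h1 := congrFun (hf.isPrim_mul_pow z n (hf.prim.hasPrim_mul_pow z n)).prim_eq z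
    rw [h1, ih hf.prim, Nat.factorial_succ, Function.iterate_succ_apply (f := H16.prim) (n := n + 1)]
    push_cast
    simp only [sub_self]
    ring

end Cuspidal

end Fermat.Agent.H16
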