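import Mathlib
import Fermat.Agent.H16.Primitive

/-!
# Weight two period cocycle
-/

set_option autoImplicit false

open UpperHalfPlane hiding I
open Complex Filter Topology Function
open scoped Manifold MatrixGroups ModularForm Real

noncomputable section

namespace Fermat.Agent.H16

/-- The monoid of integral matrices of positive determinant, in `GL (Fin 2) ℝ`. -/
def intMat : Submonoid (GL (Fin 2) ℝ) where
  carrier := {γ | 0 < γ.det.val ∧ ∃ A : Matrix (Fin 2) (Fin 2) ℤ, γ.val = A.map (Int.cast)}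
  one_mem' := ⟨by simp, 1, by simp⟩
  mul_mem' := by
    rintro a b ⟨ha, A, hA⟩ ⟨hb, B, hB⟩
    refine ⟨by rw [map_mul, Units.val_mul]; exact mul_pos ha hb, A * B, ?_⟩
    rw [Units.val_mul, hA, hB]
    exact (Matrix.map_mul (f := Int.castRingHom ℝ) (L := A) (M := B)).symm

theorem det_pos_of_mem {γ : GL (Fin 2) ℝ} (h : γ ∈ intMat) : 0 < γ.det.val := h.1

theorem mapGL_mem (g : SL(2, ℤ)) : (Matrix.SpecialLinearGroup.mapGL ℝ g) ∈ intMat := by
  refine ⟨by simp, g.1, ?_⟩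
  ext i j
  simp

/-- An admissible function: every weight two translate by an integral matrix has a normalised
primitive. -/
def Adm (g : ℍ → ℂ) : Prop := ∀ γ ∈ intMat, HasPrim (g ∣[(2 : ℤ)] γ)

namespace Adm

theorem hasPrim {g : ℍ → ℂ} (h : Adm g) : HasPrim g := by
  simpa using h 1 (one_mem _)

theorem slash {g : ℍ → ℂ} (h : Adm g) {γ : GL (Fin 2) ℝ} (hγ : γ ∈ intMat) :
    Adm (g ∣[(2 : ℤ)] γ) := fun δ hδ ↦ by
  rw [← SlashAction.slash_mul]
  exact h _ (mul_mem hγ hδ)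

theorem add {g g' : ℍ → ℂ} (h : Adm g) (h' : Adm g') : Adm (g + g') := fun γ hγ ↦ by
  rw [SlashAction.add_slash]
  exact ((h γ hγ).isPrim.add (h' γ hγ).isPrim).hasPrim

theorem smul {g : ℍ → ℂ} (c : ℂ) (h : Adm g) : Adm (c • g) := fun γ hγ ↦ by
  have hσ : UpperHalfPlane.σ γ c = c := by
    rw [UpperHalfPlane.σ, if_pos (det_pos_of_mem hγ)]; rfl
  rw [ModularForm.smul_slash, hσ]
  exact ((h γ hγ).isPrim.smul c).hasPrim

theorem zero : Adm 0 := fun γ _ ↦ by
  rw [SlashAction.zero_slash]; exact IsPrim.zero.hasPrim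

theorem sum {ι : Type*} (s : Finset ι) {g : ι → ℍ → ℂ} (h : ∀ i ∈ s, Adm (g i)) :
    Adm (∑ i ∈ s, g i) := by
  classical
  induction s using Finset.induction_on with
  | empty => simpa using zero
  | insert a s ha ih =>
    rw [Finset.sum_insert ha]
    exact (h a (Finset.mem_insert_self _ _)).add
      (ih fun i hi ↦ h i (Finset.mem_insert_of_mem hi))

end Adm

/-- The weight two period `∫_{γ∞}^{∞} g`. -/
def per (g : ℍ → ℂ) (γ : GL (Fin 2) ℝ) : ℂ :=
  prim g (γ • UpperHalfPlane.I) - prim (g ∣[(2 : ℤ)] γ) UpperHalfPlane.I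

theorem per_eq {g : ℍ → ℂ} (h : Adm g) {γ : GL (Fin 2) ℝ} (hγ : γ ∈ intMat) (z : ℍ) :
    prim g (γ • z) - prim (g ∣[(2 : ℤ)] γ) z = per g γ :=
  exists_const_of_deriv_eq (hasDerivAt_comp_smul h.hasPrim.isPrim.deriv (det_pos_of_mem hγ))
    (h γ hγ).isPrim.deriv z UpperHalfPlane.I

theorem per_mul {g : ℍ → ℂ} (h : Adm g) {γ δ : GL (Fin 2) ℝ} (hγ : γ ∈ intMat)
    (hδ : δ ∈ intMat) : per g (γ * δ) = per g γ + per (g ∣[(2 : ℤ)] γ) δ := by
  have h1 := per_eq h (mul_mem hγ hδ) UpperHalfPlane.I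
  have h2 := per_eq h hγ (δ • UpperHalfPlane.I)
  have h3 := per_eq (h.slash hγ) hδ UpperHalfPlane.I
  rw [SlashAction.slash_mul, mul_smul] at h1
  linear_combination h2 + h3 - h1

theorem per_upper {g : ℍ → ℂ} (h : Adm g) {γ : GL (Fin 2) ℝ} (hγ : γ ∈ intMat)
    (h10 : γ 1 0 = 0) : per g γ = 0 := by
  rw [per, (h.hasPrim.isPrim.smul_upper (det_pos_of_mem hγ) h10).prim_eq, sub_self]

theorem per_one {g : ℍ → ℂ} (h : Adm g) : per g 1 = 0 :=
  per_upper h (one_mem _) (by simp)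

theorem per_add {g g' : ℍ → ℂ} (h : Adm g) (h' : Adm g') {γ : GL (Fin 2) ℝ} (hγ : γ ∈ intMat) :
    per (g + g') γ = per g γ + per g' γ := by
  rw [per, per, per, (h.hasPrim.isPrim.add h'.hasPrim.isPrim).prim_eq, SlashAction.add_slash,
    ((h γ hγ).isPrim.add (h' γ hγ).isPrim).prim_eq]
  simp only [Pi.add_apply]
  ring

theorem per_smul {g : ℍ → ℂ} (c : ℂ) (h : Adm g) {γ : GL (Fin 2) ℝ} (hγ : γ ∈ intMat) :
    per (c • g) γ = c * per g γ := by
  have hσ : UpperHalfPlane.σ γ c = c := by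
    rw [UpperHalfPlane.σ, if_pos (det_pos_of_mem hγ)]; rfl
  rw [per, per, (h.hasPrim.isPrim.smul c).prim_eq, ModularForm.smul_slash, hσ,
    ((h γ hγ).isPrim.smul c).prim_eq]
  simp only [Pi.smul_apply, smul_eq_mul]
  ring

theorem per_zero {γ : GL (Fin 2) ℝ} : per 0 γ = 0 := by
  rw [per, SlashAction.zero_slash, IsPrim.zero.prim_eq]; simp

theorem per_sum {ι : Type*} (s : Finset ι) {g : ι → ℍ → ℂ} (h : ∀ i ∈ s, Adm (g i))
    {γ : GL (Fin 2) ℝ} (hγ : γ ∈ intMat) :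
    per (∑ i ∈ s, g i) γ = ∑ i ∈ s, per (g i) γ := by
  classical
  induction s using Finset.induction_on with
  | empty => simpa using per_zero
  | insert a s ha ih =>
    rw [Finset.sum_insert ha, Finset.sum_insert ha,
      per_add (h a (Finset.mem_insert_self _ _))
        (Adm.sum _ fun i hi ↦ h i (Finset.mem_insert_of_mem hi)) hγ,
      ih fun i hi ↦ h i (Finset.mem_insert_of_mem hi)]

end Fermat.Agent.H16
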