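import Mathlib
import Fermat.Agent.H16.Period

/-!
# Translates of cusp forms are cuspidal
-/

set_option autoImplicit false

open UpperHalfPlane hiding I
open Complex Filter Topology Function CongruenceSubgroup
open scoped Manifold MatrixGroups ModularForm Real

noncomputable section

namespace Fermat.Agent.H16

theorem isCusp_smul_infty {Γ : Subgroup (GL (Fin 2) ℝ)} [Γ.IsArithmetic] {γ : GL (Fin 2) ℝ}
    (hγ : γ ∈ intMat) : IsCusp (γ • OnePoint.infty) Γ := by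
  obtain ⟨hdet, A, hA⟩ := hγ
  rw [Subgroup.IsArithmetic.isCusp_iff_isCusp_SL2Z, isCusp_SL2Z_iff]
  have hdetA : (A.map (Int.cast : ℤ → ℚ)).det ≠ 0 := by
    have h1 : γ.det.val = ((A.det : ℤ) : ℝ) := by
      rw [Matrix.GeneralLinearGroup.val_det_apply, hA]
      exact (Int.cast_det A).symm
    have h2 : (A.map (Int.cast : ℤ → ℚ)).det = ((A.det : ℤ) : ℚ) := (Int.cast_det A).symm
    rw [h2]
    rw [h1] at hdet
    have : (0 : ℤ) < A.det := by exact_mod_cast hdet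
    exact_mod_cast this.ne'
  let g : GL (Fin 2) ℚ := Matrix.GeneralLinearGroup.mkOfDetNeZero _ hdetA
  have hg : γ = Matrix.GeneralLinearGroup.map (Rat.castHom ℝ) g := by
    ext i j
    simp [g, Matrix.GeneralLinearGroup.mkOfDetNeZero, hA]
  refine ⟨g • OnePoint.infty, ?_⟩
  rw [hg, ← Rat.coe_castHom, OnePoint.map_smul]
  rfl

/-- the translation matrix -/
def transMat (h : ℝ) : GL (Fin 2) ℝ := Matrix.GeneralLinearGroup.mkOfDetNeZero !![1, h; 0, 1]
  (by simp)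

theorem transMat_smul (h : ℝ) (τ : ℍ) : ((transMat h • τ : ℍ) : ℂ) = τ + h := by
  have hd : 0 < (transMat h).det.val := by
    simp [transMat, Matrix.GeneralLinearGroup.mkOfDetNeZero]
  rw [UpperHalfPlane.coe_smul_of_det_pos hd]
  simp [transMat, Matrix.GeneralLinearGroup.mkOfDetNeZero, UpperHalfPlane.num,
    UpperHalfPlane.denom]

theorem slash_transMat (k : ℤ) (h : ℝ) (f : ℍ → ℂ) (τ : ℍ) :
    (f ∣[k] transMat h) τ = f (transMat h • τ) := by
  have hd : (transMat h).det.val = 1 := by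
    simp [transMat, Matrix.GeneralLinearGroup.mkOfDetNeZero]
  rw [ModularForm.slash_apply, hd, UpperHalfPlane.σ, hd]
  simp [transMat, Matrix.GeneralLinearGroup.mkOfDetNeZero, UpperHalfPlane.denom]

variable {N : ℕ} [NeZero N] {k : ℤ}

theorem slash_periodic (f : CuspForm (Gamma0 N) k) {γ : GL (Fin 2) ℝ} (hγ : γ ∈ intMat) :
    ∃ n : ℕ, 0 < n ∧ Periodic ((⇑f ∣[k] γ) ∘ ofComplex) (n : ℝ) := by
  obtain ⟨hdet, A, hA⟩ := hγ
  have h1 : γ.det.val = ((A.det : ℤ) : ℝ) := by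
    rw [Matrix.GeneralLinearGroup.val_det_apply, hA]
    exact (Int.cast_det A).symm
  have h2 : (0 : ℤ) < A.det := by rw [h1] at hdet; exact_mod_cast hdet
  refine ⟨N * A.det.toNat, Nat.mul_pos (NeZero.pos N) (by omega), ?_⟩
  set h : ℝ := ((N * A.det.toNat : ℕ) : ℝ) with hh
  have hh' : h = N * A.det := by
    rw [hh]; push_cast
    congr 1
    have : ((A.det.toNat : ℤ) : ℝ) = (A.det : ℝ) := by rw [Int.toNat_of_nonneg h2.le]
    exact_mod_cast this
  -- the conjugated matrix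
  let B : SL(2, ℤ) := ⟨!![1 - N * A 0 0 * A 1 0, N * A 0 0 ^ 2; - N * A 1 0 ^ 2,
    1 + N * A 0 0 * A 1 0], by rw [Matrix.det_fin_two_of]; ring⟩
  have hB : B ∈ Gamma0 N := by
    rw [Gamma0_mem]; simp [B]
  have hcomm : γ * transMat h = Matrix.SpecialLinearGroup.mapGL ℝ B * γ := by
    apply Units.ext
    rw [Units.val_mul, Units.val_mul, hA]
    have hd : ((A.det : ℤ) : ℝ) = A 0 0 * A 1 1 - A 0 1 * A 1 0 := by
      rw [Matrix.det_fin_two]; push_cast; ring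
    ext i j
    fin_cases i <;> fin_cases j <;>
      simp [transMat, Matrix.GeneralLinearGroup.mkOfDetNeZero, Matrix.mul_apply,
        Fin.sum_univ_two, B, hh', hd] <;> ring
  have hinv : (⇑f ∣[k] γ) ∣[k] transMat h = ⇑f ∣[k] γ := by
    rw [← SlashAction.slash_mul, hcomm, SlashAction.slash_mul]
    congr 1
    exact SlashInvariantFormClass.slash_action_eq f _ ⟨B, hB, rfl⟩
  apply periodic_comp_ofComplex_of
  intro τ hw
  have h3 := congrFun hinv τ
  rw [slash_transMat] at h3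
  rw [← h3]
  refine congrArg (⇑f ∣[k] γ) (UpperHalfPlane.ext ?_)
  rw [transMat_smul]

theorem cuspidal_slash (f : CuspForm (Gamma0 N) k) {γ : GL (Fin 2) ℝ} (hγ : γ ∈ intMat) :
    Cuspidal (⇑f ∣[k] γ) where
  holo := MDifferentiable.slash (CuspFormClass.holo f) k γ
  per := slash_periodic f hγ
  zero := CuspFormClass.zero_at_cusps f (isCusp_smul_infty hγ) γ rfl

/-! ### Polynomial functions -/

/-- Functions on `ℍ` given by polynomials of degree at most `m` with coefficients in `A`. -/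
def IsPoly (A : Type) [CommRing A] [Algebra A ℂ] (m : ℕ) (p : ℍ → ℂ) : Prop :=
  ∃ P : Polynomial A, P.natDegree ≤ m ∧ ∀ τ : ℍ, p τ = Polynomial.aeval (τ : ℂ) P

section Poly

variable {A : Type} [CommRing A] [Algebra A ℂ] {m : ℕ}

open Polynomial in
theorem exists_poly_slash {P : Polynomial A} (hP : P.natDegree ≤ m) (a b c d : A) :
    ∃ Q : Polynomial A, Q.natDegree ≤ m ∧ ∀ z : ℂ,
      algebraMap A ℂ c * z + algebraMap A ℂ d ≠ 0 →
      Polynomial.aeval z Q = (algebraMap A ℂ c * z + algebraMap A ℂ d) ^ m *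
        Polynomial.aeval ((algebraMap A ℂ a * z + algebraMap A ℂ b) /
          (algebraMap A ℂ c * z + algebraMap A ℂ d)) P := by
  refine ⟨∑ i ∈ Finset.range (m + 1), C (P.coeff i) * (C a * X + C b) ^ i *
    (C c * X + C d) ^ (m - i), ?_, ?_⟩
  · apply Polynomial.natDegree_sum_le_of_forall_le
    intro i hi
    have hi' : i ≤ m := by simpa [Nat.lt_succ_iff] using hi
    have h1 : (C a * X + C b : Polynomial A).natDegree ≤ 1 := natDegree_linear_le
    have h2 : (C c * X + C d : Polynomial A).natDegree ≤ 1 := natDegree_linear_le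
    calc _ ≤ (C (P.coeff i) * (C a * X + C b) ^ i).natDegree +
          ((C c * X + C d) ^ (m - i)).natDegree := natDegree_mul_le
      _ ≤ ((C (P.coeff i)).natDegree + ((C a * X + C b) ^ i).natDegree) +
          ((C c * X + C d) ^ (m - i)).natDegree := by gcongr; exact natDegree_mul_le
      _ ≤ (0 + i * 1) + (m - i) * 1 := by
          gcongr
          · simp
          · exact natDegree_pow_le.trans (Nat.mul_le_mul_left _ h1)
          · exact natDegree_pow_le.trans (Nat.mul_le_mul_left _ h2)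
      _ = m := by omega
  · intro z hz
    conv_rhs => rw [Polynomial.aeval_eq_sum_range' (Nat.lt_succ_of_le hP)]
    rw [map_sum, Finset.mul_sum]
    refine Finset.sum_congr rfl fun i hi ↦ ?_
    have hi' : i ≤ m := by simpa [Nat.lt_succ_iff] using hi
    simp only [map_mul, map_pow, map_add, aeval_C, aeval_X]
    rw [Algebra.smul_def, div_pow]
    obtain ⟨j, rfl⟩ := Nat.exists_eq_add_of_le hi'
    rw [Nat.add_sub_cancel_left, pow_add]
    generalize algebraMap A ℂ c * z + algebraMap A ℂ d = u at hz ⊢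
    generalize algebraMap A ℂ a * z + algebraMap A ℂ b = v
    field_simp

theorem IsPoly.add {p q : ℍ → ℂ} (hp : IsPoly A m p) (hq : IsPoly A m q) : IsPoly A m (p + q) := by
  obtain ⟨P, hP, hp⟩ := hp
  obtain ⟨Q, hQ, hq⟩ := hq
  exact ⟨P + Q, (Polynomial.natDegree_add_le _ _).trans (max_le hP hQ), fun τ ↦ by
    rw [Pi.add_apply, hp, hq, map_add]⟩

theorem IsPoly.toComplex {p : ℍ → ℂ} (hp : IsPoly A m p) : IsPoly ℂ m p := by
  obtain ⟨P, hP, hp⟩ := hp
  refine ⟨P.map (algebraMap A ℂ), (Polynomial.natDegree_map_le).trans hP, fun τ ↦ ?_⟩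
  rw [hp, Polynomial.aeval_map_algebraMap]

/-- Slash action of weight `-m` on complex polynomials. -/
theorem IsPoly.slash {p : ℍ → ℂ} (hp : IsPoly ℂ m p) {γ : GL (Fin 2) ℝ} (hγ : 0 < γ.det.val) :
    IsPoly ℂ m (p ∣[-(m : ℤ)] γ) := by
  obtain ⟨P, hP, hp⟩ := hp
  obtain ⟨Q, hQ, hQ'⟩ := exists_poly_slash hP (γ 0 0 : ℂ) (γ 0 1 : ℂ) (γ 1 0 : ℂ) (γ 1 1 : ℂ)
  refine ⟨Polynomial.C (((γ.det.val : ℝ) : ℂ) ^ (-(m : ℤ) - 1)) * Q, ?_, fun τ ↦ ?_⟩
  · exact (Polynomial.natDegree_C_mul_le _ _).trans hQ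
  · have hne : (γ 1 0 : ℂ) * τ + (γ 1 1 : ℂ) ≠ 0 := denom_ne_zero γ τ
    have h1 := hQ' τ hne
    simp only [Algebra.algebraMap_self, RingHom.id_apply] at h1
    rw [map_mul, h1, Polynomial.aeval_C, ModularForm.slash_apply, hp,
      UpperHalfPlane.coe_smul_of_det_pos hγ, UpperHalfPlane.σ, if_pos hγ, abs_of_pos hγ]
    simp only [UpperHalfPlane.num, UpperHalfPlane.denom, neg_neg, zpow_natCast,
      Algebra.algebraMap_self, RingHom.id_apply]
    change Polynomial.aeval _ P * _ * _ = _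
    ring

/-- The key divisibility property: an integral polynomial is `|det γ|` times the slash of an
integral polynomial by `γ`. -/
theorem IsPoly.exists_slash {p : ℍ → ℂ} (hp : IsPoly ℤ m p) {γ : GL (Fin 2) ℝ} (hγ : γ ∈ intMat) :
    ∃ p' : ℍ → ℂ, IsPoly ℤ m p' ∧ p = |γ.det.val| • (p' ∣[-(m : ℤ)] γ) := by
  obtain ⟨P, hP, hp⟩ := hp
  obtain ⟨hdet, B, hB⟩ := hγ
  obtain ⟨Q, hQ, hQ'⟩ := exists_poly_slash hP (B 1 1) (-B 0 1) (-B 1 0) (B 0 0)
  refine ⟨fun τ ↦ Polynomial.aeval (τ : ℂ) Q, ⟨Q, hQ, fun _ ↦ rfl⟩, ?_⟩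
  funext τ
  have h1 : γ.det.val = ((B.det : ℤ) : ℝ) := by
    rw [Matrix.GeneralLinearGroup.val_det_apply, hB]
    exact (Int.cast_det B).symm
  have hB2 : (B.det : ℤ) = B 0 0 * B 1 1 - B 0 1 * B 1 0 := Matrix.det_fin_two B
  have hD : (0 : ℤ) < B.det := by rw [h1] at hdet; exact_mod_cast hdet
  have hD' : ((B.det : ℤ) : ℂ) ≠ 0 := by exact_mod_cast hD.ne'
  have e00 : γ 0 0 = (B 0 0 : ℝ) := by rw [hB]; rfl
  have e01 : γ 0 1 = (B 0 1 : ℝ) := by rw [hB]; rfl
  have e10 : γ 1 0 = (B 1 0 : ℝ) := by rw [hB]; rfl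
  have e11 : γ 1 1 = (B 1 1 : ℝ) := by rw [hB]; rfl
  have hne : (B 1 0 : ℂ) * τ + (B 1 1 : ℂ) ≠ 0 := by
    have := denom_ne_zero γ τ
    rw [UpperHalfPlane.denom, e10, e11] at this
    exact_mod_cast this
  have hsm : ((γ • τ : ℍ) : ℂ) = ((B 0 0 : ℂ) * τ + (B 0 1 : ℂ)) / ((B 1 0 : ℂ) * τ + (B 1 1 : ℂ)) := by
    rw [UpperHalfPlane.coe_smul_of_det_pos hdet, UpperHalfPlane.num, UpperHalfPlane.denom,
      e00, e01, e10, e11]
    push_cast; rfl
  have hden : (-(B 1 0 : ℂ)) * ((γ • τ : ℍ) : ℂ) + (B 0 0 : ℂ) =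
      ((B.det : ℤ) : ℂ) / ((B 1 0 : ℂ) * τ + (B 1 1 : ℂ)) := by
    rw [hsm, hB2]; push_cast
    rw [eq_div_iff hne, add_mul, mul_assoc, div_mul_cancel₀ _ hne]; ring
  have hnum : ((B 1 1 : ℂ)) * ((γ • τ : ℍ) : ℂ) + (-(B 0 1 : ℂ)) =
      ((B.det : ℤ) : ℂ) * τ / ((B 1 0 : ℂ) * τ + (B 1 1 : ℂ)) := by
    rw [hsm, hB2]; push_cast
    rw [eq_div_iff hne, add_mul, mul_assoc, div_mul_cancel₀ _ hne]; ring
  have h2 := hQ' (γ • τ : ℍ) (by
    simp only [algebraMap_int_eq, eq_intCast, Int.cast_neg]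
    rw [hden]; exact div_ne_zero hD' hne)
  simp only [algebraMap_int_eq, eq_intCast, Int.cast_neg] at h2
  rw [hden, hnum] at h2
  have h3 : ((B.det : ℤ) : ℂ) * τ / ((B 1 0 : ℂ) * τ + (B 1 1 : ℂ)) /
      (((B.det : ℤ) : ℂ) / ((B 1 0 : ℂ) * τ + (B 1 1 : ℂ))) = τ := by
    rw [div_div_div_cancel_right₀ hne, mul_div_cancel_left₀ _ hD']
  rw [h3] at h2
  rw [Pi.smul_apply, ModularForm.slash_apply, h2, UpperHalfPlane.σ, if_pos hdet, abs_of_pos hdet, hp,
    UpperHalfPlane.denom, e10, e11, h1]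
  simp only [neg_neg, zpow_natCast, real_smul, ofReal_intCast, ContinuousAlgEquiv.refl_apply]
  rw [zpow_sub₀ hD', zpow_neg, zpow_natCast, zpow_one, div_pow]
  generalize (B 1 0 : ℂ) * τ + (B 1 1 : ℂ) = u at hne ⊢
  generalize ((B.det : ℤ) : ℂ) = v at hD' ⊢
  field_simp

end Poly

end Fermat.Agent.H16
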