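import Mathlib
import Fermat.Agent.H16.CuspPeriod
import Fermat.Prelude.Thm_ModularForm_sturm_bound_Gamma0

/-!
# The period lattice of `S_k(Γ₀(N))`, and its separation property
-/

set_option autoImplicit false

open UpperHalfPlane hiding I
open Complex Filter Topology Function CongruenceSubgroup
open scoped Manifold MatrixGroups ModularForm Real

noncomputable section

namespace Fermat.Agent.H16

local notation "ι" => Matrix.SpecialLinearGroup.mapGL ℝ

section General

variable {m : ℕ}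

theorem Cuspidal.hasPrim_mul_aeval {f : ℍ → ℂ} (hf : Cuspidal f) (P : Polynomial ℂ) :
    HasPrim (fun τ : ℍ ↦ f τ * Polynomial.aeval (τ : ℂ) P) := by
  induction P using Polynomial.induction_on' with
  | add p q hp hq =>
    have : (fun τ : ℍ ↦ f τ * Polynomial.aeval (τ : ℂ) (p + q)) =
      (fun τ : ℍ ↦ f τ * Polynomial.aeval (τ : ℂ) p) +
      (fun τ : ℍ ↦ f τ * Polynomial.aeval (τ : ℂ) q) := by
      funext τ; simp [mul_add]
    rw [this]
    exact (hp.isPrim.add hq.isPrim).hasPrim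
  | monomial n a =>
    have : (fun τ : ℍ ↦ f τ * Polynomial.aeval (τ : ℂ) (Polynomial.monomial n a)) =
      a • (fun τ : ℍ ↦ f τ * ((τ : ℂ) - 0) ^ n) := by
      funext τ
      simp only [Polynomial.aeval_monomial, Algebra.algebraMap_self, RingHom.id_apply, sub_zero,
        Pi.smul_apply, smul_eq_mul]
      ring
    rw [this]
    exact ((hf.hasPrim_mul_pow 0 n).isPrim.smul a).hasPrim

theorem Cuspidal.hasPrim_mul {f p : ℍ → ℂ} (hf : Cuspidal f) (hp : IsPoly ℂ m p) :
    HasPrim (f * p) := by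
  obtain ⟨P, -, hP⟩ := hp
  have : f * p = (fun τ : ℍ ↦ f τ * Polynomial.aeval (τ : ℂ) P) := by
    funext τ; simp [hP]
  rw [this]
  exact hf.hasPrim_mul_aeval P

theorem mul_slash_two {k : ℤ} (hk : k = m + 2) (f p : ℍ → ℂ) (γ : GL (Fin 2) ℝ) :
    (f * p) ∣[(2 : ℤ)] γ = |γ.det.val| • ((f ∣[k] γ) * (p ∣[-(m : ℤ)] γ)) := by
  rw [← ModularForm.mul_slash, hk]
  congr 1
  ring

end General

variable {N : ℕ} [NeZero N] {k : ℤ} {m : ℕ}

theorem adm_mul (hk : k = m + 2) (f : CuspForm (Gamma0 N) k) {γ : GL (Fin 2) ℝ}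
    (hγ : γ ∈ intMat) {p : ℍ → ℂ} (hp : IsPoly ℂ m p) : Adm ((⇑f ∣[k] γ) * p) := by
  intro δ hδ
  rw [mul_slash_two hk, ← SlashAction.slash_mul]
  have h := (cuspidal_slash f (mul_mem hγ hδ)).hasPrim_mul (hp.slash (det_pos_of_mem hδ))
  have h2 := (h.isPrim.smul ((|δ.det.val| : ℝ) : ℂ)).hasPrim
  convert h2 using 1
  funext τ
  simp only [Pi.smul_apply, real_smul, smul_eq_mul]

theorem adm_mul' (hk : k = m + 2) (f : CuspForm (Gamma0 N) k)
    {p : ℍ → ℂ} (hp : IsPoly ℂ m p) : Adm (⇑f * p) := by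
  have := adm_mul hk f (one_mem _) hp
  rwa [SlashAction.slash_one] at this

/-- The period functional `f ↦ per ((f ∣ g) * p) h`. -/
def perFun (N : ℕ) [NeZero N] (hk : k = m + 2) {p : ℍ → ℂ} (hp : IsPoly ℂ m p) (g h : SL(2, ℤ)) :
    CuspForm (Gamma0 N) k →ₗ[ℂ] ℂ where
  toFun f := per ((⇑f ∣[k] ι g) * p) (ι h)
  map_add' f f' := by
    rw [← per_add (adm_mul hk f (mapGL_mem g) hp) (adm_mul hk f' (mapGL_mem g) hp) (mapGL_mem h)]
    congr 1
    rw [← add_mul, ← SlashAction.add_slash]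
    rfl
  map_smul' c f := by
    rw [RingHom.id_apply, smul_eq_mul, ← per_smul c (adm_mul hk f (mapGL_mem g) hp) (mapGL_mem h)]
    congr 1
    have hσ : UpperHalfPlane.σ (ι g) c = c := by
      rw [UpperHalfPlane.σ, if_pos (det_pos_of_mem (mapGL_mem g))]; rfl
    rw [← smul_mul_assoc]
    congr 1
    have h1 := ModularForm.smul_slash k (ι g) (⇑f) c
    rw [hσ] at h1
    exact h1

theorem perFun_apply (hk : k = m + 2) {p : ℍ → ℂ} (hp : IsPoly ℂ m p) (g h : SL(2, ℤ))
    (f : CuspForm (Gamma0 N) k) :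
    perFun N hk hp g h f = per ((⇑f ∣[k] ι g) * p) (ι h) := rfl

/-- The period lattice. -/
def lattice (N : ℕ) [NeZero N] (k : ℤ) (m : ℕ) : Submodule ℤ (CuspForm (Gamma0 N) k →ₗ[ℂ] ℂ) :=
  Submodule.span ℤ {φ | ∃ (p : ℍ → ℂ) (g : SL(2, ℤ)), IsPoly ℤ m p ∧
    ∀ f : CuspForm (Gamma0 N) k, φ f = per (⇑f * p) (ι g)}

theorem isPoly_slash_SL {p : ℍ → ℂ} (hp : IsPoly ℤ m p) (g : SL(2, ℤ)) :
    IsPoly ℤ m (p ∣[-(m : ℤ)] ι g) := by
  obtain ⟨p', hp', h⟩ := hp.exists_slash (mapGL_mem g⁻¹)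
  have hdet : |(ι g⁻¹).det.val| = 1 := by simp
  rw [hdet, one_smul] at h
  rw [h, ← SlashAction.slash_mul, ← map_mul, inv_mul_cancel, map_one, SlashAction.slash_one]
  exact hp'

/-! ### Finite generation -/

/-- The monomial `τ ↦ τ ^ i`. -/
def mono (i : ℕ) : ℍ → ℂ := fun τ ↦ (τ : ℂ) ^ i

theorem isPoly_mono {A : Type} [CommRing A] [Algebra A ℂ] {i : ℕ} (hi : i ≤ m) :
    IsPoly A m (mono i) :=
  ⟨Polynomial.X ^ i, (Polynomial.natDegree_X_pow_le i).trans hi, fun τ ↦ by simp [mono]⟩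

theorem isPoly_eq_sum {A : Type} [CommRing A] [Algebra A ℂ] {p : ℍ → ℂ} (hp : IsPoly A m p) :
    ∃ c : ℕ → A, p = ∑ i ∈ Finset.range (m + 1), algebraMap A ℂ (c i) • mono i := by
  obtain ⟨P, hP, hp⟩ := hp
  refine ⟨P.coeff, ?_⟩
  funext τ
  rw [hp, Polynomial.aeval_eq_sum_range' (Nat.lt_succ_of_le hP), Finset.sum_apply]
  refine Finset.sum_congr rfl fun i _ ↦ ?_
  rw [Pi.smul_apply, Algebra.smul_def, smul_eq_mul, mono]

/-- slash commutes with translation on products. -/
theorem mul_slash_two_SL (hk : k = m + 2) (f p : ℍ → ℂ) (g : SL(2, ℤ)) :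
    (f * p) ∣[(2 : ℤ)] ι g = (f ∣[k] ι g) * (p ∣[-(m : ℤ)] ι g) := by
  rw [mul_slash_two hk]
  have hdet : |(ι g).det.val| = 1 := by simp
  rw [hdet, one_smul]

/-- The generating functionals `f ↦ per ((f ∣ g) * τ ^ i) S`. -/
def genSet (N : ℕ) [NeZero N] (hk : k = m + 2) : Set (CuspForm (Gamma0 N) k →ₗ[ℂ] ℂ) :=
  {φ | ∃ (i : ℕ) (hi : i ≤ m) (g : SL(2, ℤ)), φ = perFun N hk (isPoly_mono hi) g ModularGroup.S}

theorem genSet_finite (hk : k = m + 2) : (genSet N hk).Finite := by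
  have h1 : genSet N hk ⊆ ⋃ i : Fin (m + 1), Set.range
      (fun g : SL(2, ℤ) ↦ perFun N hk (isPoly_mono (Nat.lt_succ_iff.mp i.2)) g ModularGroup.S) := by
    rintro φ ⟨i, hi, g, rfl⟩
    exact Set.mem_iUnion.mpr ⟨⟨i, Nat.lt_succ_of_le hi⟩, g, rfl⟩
  refine (Set.finite_iUnion fun i ↦ ?_).subset h1
  -- factor through the quotient
  set F : SL(2, ℤ) → (CuspForm (Gamma0 N) k →ₗ[ℂ] ℂ) :=
    fun g ↦ perFun N hk (isPoly_mono (Nat.lt_succ_iff.mp i.2)) g ModularGroup.S with hF
  have hinv : ∀ γ ∈ Gamma0 N, ∀ g, F (γ * g) = F g := by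
    intro γ hγ g
    ext f
    simp only [hF, perFun_apply]
    rw [map_mul, SlashAction.slash_mul]
    have : ⇑f ∣[k] ι γ = ⇑f := SlashInvariantFormClass.slash_action_eq f _ ⟨γ, hγ, rfl⟩
    rw [this]
  let F' : (SL(2, ℤ) ⧸ Gamma0 N) → (CuspForm (Gamma0 N) k →ₗ[ℂ] ℂ) :=
    Quotient.lift (fun g : SL(2, ℤ) ↦ F g⁻¹) (by
      intro a b hab
      have hab' : a⁻¹ * b ∈ Gamma0 N := QuotientGroup.leftRel_apply.mp hab
      have := hinv _ hab' b⁻¹
      rw [← this]
      simp)
  have hsub : Set.range F ⊆ Set.range F' := by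
    rintro _ ⟨g, rfl⟩
    refine ⟨(QuotientGroup.mk g⁻¹ : SL(2, ℤ) ⧸ Gamma0 N), ?_⟩
    change F (g⁻¹)⁻¹ = F g
    rw [inv_inv]
  exact (Set.finite_range F').subset hsub

/-- The per functional attached to an integral polynomial and `S` lies in the span of `genSet`. -/
theorem mem_span_genSet_of (hk : k = m + 2) {p : ℍ → ℂ} (hp : IsPoly ℤ m p) (g : SL(2, ℤ))
    (φ : CuspForm (Gamma0 N) k →ₗ[ℂ] ℂ)
    (hφ : ∀ f, φ f = per ((⇑f ∣[k] ι g) * p) (ι ModularGroup.S)) :
    φ ∈ Submodule.span ℤ (genSet N hk) := by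
  obtain ⟨c, hc⟩ := isPoly_eq_sum hp
  have h1 : φ = ∑ i : Fin (m + 1), c i •
      perFun N hk (isPoly_mono (Nat.lt_succ_iff.mp i.2)) g ModularGroup.S := by
    ext f
    rw [hφ, hc, Finset.mul_sum]
    have h2 : ∀ i ∈ Finset.range (m + 1), Adm ((⇑f ∣[k] ι g) * (algebraMap ℤ ℂ (c i) • mono i)) := by
      intro i hi
      rw [mul_smul_comm]
      exact (adm_mul hk f (mapGL_mem g)
        (isPoly_mono (Nat.lt_succ_iff.mp (Finset.mem_range.mp hi)))).smul _
    rw [per_sum _ h2 (mapGL_mem _), Finset.sum_range, LinearMap.sum_apply]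
    refine Finset.sum_congr rfl fun i _ ↦ ?_
    rw [mul_smul_comm, per_smul _ (adm_mul hk f (mapGL_mem g)
        (isPoly_mono (Nat.lt_succ_iff.mp i.2))) (mapGL_mem _), LinearMap.smul_apply, perFun_apply]
    simp
  rw [h1]
  exact Submodule.sum_mem _ fun i _ ↦ Submodule.smul_mem _ _
    (Submodule.subset_span ⟨i, Nat.lt_succ_iff.mp i.2, g, rfl⟩)

theorem per_T {g : ℍ → ℂ} (h : Adm g) : per g (ι ModularGroup.T) = 0 :=
  per_upper h (mapGL_mem _) (by simp [ModularGroup.T])

theorem per_T_inv {g : ℍ → ℂ} (h : Adm g) : per g (ι ModularGroup.T⁻¹) = 0 := by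
  have h1 := per_mul h (mapGL_mem ModularGroup.T⁻¹) (mapGL_mem ModularGroup.T)
  rw [← map_mul, inv_mul_cancel, map_one, per_one h, per_T (h.slash (mapGL_mem _)), add_zero] at h1
  exact h1.symm

theorem exists_perFun_mem (hk : k = m + 2) (h : SL(2, ℤ)) :
    ∀ {p : ℍ → ℂ} (_hp : IsPoly ℤ m p) (φ : CuspForm (Gamma0 N) k →ₗ[ℂ] ℂ)
    (_hφ : ∀ f, φ f = per (⇑f * p) (ι h)),
    φ ∈ Submodule.span ℤ (genSet N hk) := by
  have hcl : h ∈ Subgroup.closure {ModularGroup.S, ModularGroup.T} := by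
    rw [SpecialLinearGroup.SL2Z_generators]; trivial
  induction hcl using Subgroup.closure_induction_right with
  | one =>
    intro p hp φ hφ
    have : φ = 0 := by
      ext f
      rw [hφ, map_one, per_one (adm_mul' hk f hp.toComplex)]; rfl
    rw [this]; exact Submodule.zero_mem _
  | mul_right x _ y hy ih =>
    intro p hp φ hφ
    have hstep : ∀ f : CuspForm (Gamma0 N) k, φ f = per (⇑f * p) (ι x) +
        per ((⇑f ∣[k] ι x) * (p ∣[-(m : ℤ)] ι x)) (ι y) := by
      intro f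
      rw [hφ, map_mul, per_mul (adm_mul' hk f hp.toComplex) (mapGL_mem _) (mapGL_mem _),
        mul_slash_two_SL hk]
    have hφ1 : perFun N hk hp.toComplex 1 x ∈ Submodule.span ℤ (genSet N hk) :=
      ih hp _ fun f ↦ by rw [perFun_apply, map_one, SlashAction.slash_one]
    have hpx := isPoly_slash_SL hp x
    have hφ2 : perFun N hk hpx.toComplex x y ∈ Submodule.span ℤ (genSet N hk) := by
      rcases hy with rfl | rfl
      · exact mem_span_genSet_of hk hpx x _ fun f ↦ rfl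
      · have : perFun N hk hpx.toComplex x ModularGroup.T = 0 := by
          ext f
          rw [perFun_apply, per_T (adm_mul hk f (mapGL_mem _) hpx.toComplex)]; rfl
        rw [this]; exact Submodule.zero_mem _
    have : φ = perFun N hk hp.toComplex 1 x + perFun N hk hpx.toComplex x y := by
      ext f
      rw [hstep, LinearMap.add_apply, perFun_apply, perFun_apply, map_one, SlashAction.slash_one]
    rw [this]
    exact Submodule.add_mem _ hφ1 hφ2
  | mul_inv_cancel x _ y hy ih =>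
    intro p hp φ hφ
    have hstep : ∀ f : CuspForm (Gamma0 N) k, φ f = per (⇑f * p) (ι x) +
        per ((⇑f ∣[k] ι x) * (p ∣[-(m : ℤ)] ι x)) (ι y⁻¹) := by
      intro f
      rw [hφ, map_mul, per_mul (adm_mul' hk f hp.toComplex) (mapGL_mem _) (mapGL_mem _),
        mul_slash_two_SL hk]
    have hφ1 : perFun N hk hp.toComplex 1 x ∈ Submodule.span ℤ (genSet N hk) :=
      ih hp _ fun f ↦ by rw [perFun_apply, map_one, SlashAction.slash_one]
    have hpx := isPoly_slash_SL hp x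
    have hφ2 : perFun N hk hpx.toComplex x y⁻¹ ∈ Submodule.span ℤ (genSet N hk) := by
      rcases hy with rfl | rfl
      · have hpx2 := isPoly_slash_SL hpx ModularGroup.S⁻¹
        have h3 : perFun N hk hpx2.toComplex (x * ModularGroup.S⁻¹) ModularGroup.S ∈
          Submodule.span ℤ (genSet N hk) := mem_span_genSet_of hk hpx2 _ _ fun f ↦ rfl
        have : perFun N hk hpx.toComplex x ModularGroup.S⁻¹ =
            - perFun N hk hpx2.toComplex (x * ModularGroup.S⁻¹) ModularGroup.S := by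
          ext f
          rw [LinearMap.neg_apply, perFun_apply, perFun_apply]
          have hadm := adm_mul hk f (mapGL_mem x) hpx.toComplex
          have h4 := per_mul hadm (mapGL_mem ModularGroup.S⁻¹) (mapGL_mem ModularGroup.S)
          rw [← map_mul, inv_mul_cancel, map_one, per_one hadm, mul_slash_two_SL hk,
            ← SlashAction.slash_mul, ← map_mul] at h4
          linear_combination -h4
        rw [this]
        exact Submodule.neg_mem _ h3
      · have : perFun N hk hpx.toComplex x ModularGroup.T⁻¹ = 0 := by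
          ext f
          rw [perFun_apply, per_T_inv (adm_mul hk f (mapGL_mem _) hpx.toComplex)]; rfl
        rw [this]; exact Submodule.zero_mem _
    have : φ = perFun N hk hp.toComplex 1 x + perFun N hk hpx.toComplex x y⁻¹ := by
      ext f
      rw [hstep, LinearMap.add_apply, perFun_apply, perFun_apply, map_one, SlashAction.slash_one]
    rw [this]
    exact Submodule.add_mem _ hφ1 hφ2

theorem lattice_fg (hk : k = m + 2) : (lattice N k m).FG := by
  have hle : lattice N k m ≤ Submodule.span ℤ (genSet N hk) := by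
    rw [lattice, Submodule.span_le]
    rintro φ ⟨p, g, hp, hφ⟩
    exact exists_perFun_mem hk g hp φ hφ
  have hfg : (Submodule.span ℤ (genSet N hk)).FG := Submodule.fg_span (genSet_finite hk)
  have : IsNoetherian ℤ (Submodule.span ℤ (genSet N hk)) :=
    isNoetherian_of_fg_of_noetherian _ hfg
  have h2 : IsNoetherian ℤ (lattice N k m) :=
    isNoetherian_of_le hle
  exact (Submodule.fg_top _).mp (IsNoetherian.noetherian ⊤)

end Fermat.Agent.H16
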