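import Mathlib
import Fermat.Agent.H16.Lattice
import Fermat.Prelude.Def_CuspForm_HeckeAlgebra

/-!
# Hecke stability of the period lattice, separation, and finiteness of the Hecke algebra
-/

set_option autoImplicit false

open UpperHalfPlane hiding I
open Complex Filter Topology Function CongruenceSubgroup
open scoped Manifold MatrixGroups ModularForm Real

noncomputable section

namespace Fermat.Agent.H16

local notation "ι" => Matrix.SpecialLinearGroup.mapGL ℝ

variable {N : ℕ} [NeZero N] {k : ℤ} {m : ℕ}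

/-! ### Vanishing in non-positive weight -/

theorem cuspForm_eq_zero_of_nonpos (hk : k ≤ 0) (f : CuspForm (Gamma0 N) k) : f = 0 := by
  have h1 : ModularFormClass.modularForm f = (0 : ModularForm (Gamma0 N) k) := by
    apply ModularForm.sturm_bound_Gamma0 N
    intro n hn
    have h2 : (k * ((Gamma0 N).index : ℤ)).toNat = 0 :=
      Int.toNat_of_nonpos (mul_nonpos_of_nonpos_of_nonneg hk (by positivity))
    rw [h2] at hn
    have hn0 : n = 0 := by simpa using hn
    subst hn0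
    exact CuspFormClass.qExpansion_coeff_zero f one_pos (by simp)
  ext τ
  exact DFunLike.congr_fun h1 τ

theorem cuspForm_eq_zero_of_odd (hk : Odd k) (f : CuspForm (Gamma0 N) k) : f = 0 := by
  have h1 : ModularFormClass.modularForm f = (0 : ModularForm (Gamma0 N) k) := by
    apply ModularForm.eq_zero_of_neg_one_mem _ hk
    refine ⟨-1, ?_, ?_⟩
    · show (-1 : SL(2, ℤ)) ∈ Gamma0 N
      rw [Gamma0_mem]; simp
    · ext i j; simp
  ext τ
  exact DFunLike.congr_fun h1 τ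

/-! ### Decomposition of integral matrices -/

theorem exists_SL_mul_upper {γ : GL (Fin 2) ℝ} (hγ : γ ∈ intMat) :
    ∃ (g : SL(2, ℤ)) (β : GL (Fin 2) ℝ), β ∈ intMat ∧ β 1 0 = 0 ∧ γ = ι g * β := by
  have h1 : IsCusp (γ • OnePoint.infty) 𝒮ℒ := isCusp_smul_infty hγ
  obtain ⟨g, hg⟩ := isCusp_SL2Z_iff'.mp h1
  refine ⟨g, ι g⁻¹ * γ, mul_mem (mapGL_mem _) hγ, ?_, ?_⟩
  · rw [← OnePoint.smul_infty_eq_self_iff, mul_smul, hg, ← mul_smul, ← map_mul, inv_mul_cancel,
      map_one, one_smul]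
  · rw [← mul_assoc, ← map_mul, mul_inv_cancel, map_one, one_mul]

/-! ### Hecke stability -/

theorem per_slash_upper (hk : k = m + 2) {β : GL (Fin 2) ℝ} (hβ : β ∈ intMat) (h10 : β 1 0 = 0)
    {p : ℍ → ℂ} (hp : IsPoly ℤ m p) (g : SL(2, ℤ)) :
    ∃ (p' : ℍ → ℂ) (g' : SL(2, ℤ)), IsPoly ℤ m p' ∧
      ∀ f : CuspForm (Gamma0 N) k, per ((⇑f ∣[k] β) * p) (ι g) = per (⇑f * p') (ι g') := by
  obtain ⟨p', hp', hpp⟩ := hp.exists_slash hβ
  obtain ⟨g', β', hβ', h10', hdec⟩ := exists_SL_mul_upper (mul_mem hβ (mapGL_mem g))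
  refine ⟨p', g', hp', fun f ↦ ?_⟩
  have hadm := adm_mul' hk f hp'.toComplex
  have h1 : (⇑f ∣[k] β) * p = (⇑f * p') ∣[(2 : ℤ)] β := by
    rw [mul_slash_two hk, hpp, mul_smul_comm]
  have h2 := per_mul hadm hβ (mapGL_mem g)
  rw [hdec, per_mul hadm (mapGL_mem g') hβ', per_upper (hadm.slash (mapGL_mem g')) hβ' h10',
    per_upper hadm hβ h10, zero_add, add_zero] at h2
  rw [h1, h2]

theorem upperTriangular_mem {a b d : ℤ} (h : 0 < a * d) {γ : GL (Fin 2) ℝ}
    (hγ : γ.val = !![(a : ℝ), (b : ℝ); 0, (d : ℝ)]) : γ ∈ intMat := by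
  refine ⟨?_, !![a, b; 0, d], ?_⟩
  · rw [Matrix.GeneralLinearGroup.val_det_apply, hγ, Matrix.det_fin_two_of, mul_zero, sub_zero]
    exact_mod_cast h
  · rw [hγ]
    ext i j
    fin_cases i <;> fin_cases j <;> simp

theorem heckeMatrix_mem {p : ℕ} (hp : p ≠ 0) (j : ℕ) : ModularForm.heckeMatrix p j ∈ intMat :=
  upperTriangular_mem (a := 1) (b := j) (d := p) (by positivity)
    (by rw [ModularForm.val_heckeMatrix hp]; simp)

theorem heckeMatrix_one_zero {p : ℕ} (hp : p ≠ 0) (j : ℕ) :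
    (ModularForm.heckeMatrix p j) 1 0 = 0 := by
  rw [ModularForm.val_heckeMatrix hp]; simp

theorem heckeDiagMatrix_mem {p : ℕ} (hp : p ≠ 0) : ModularForm.heckeDiagMatrix p ∈ intMat :=
  upperTriangular_mem (a := p) (b := 0) (d := 1) (by positivity)
    (by rw [ModularForm.val_heckeDiagMatrix hp]; simp)

theorem heckeDiagMatrix_one_zero {p : ℕ} (hp : p ≠ 0) :
    (ModularForm.heckeDiagMatrix p) 1 0 = 0 := by
  rw [ModularForm.val_heckeDiagMatrix hp]; simp

theorem mem_lattice_of (hk : k = m + 2) {β : GL (Fin 2) ℝ} (hβ : β ∈ intMat) (h10 : β 1 0 = 0)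
    {p : ℍ → ℂ} (hp : IsPoly ℤ m p) (g : SL(2, ℤ)) (φ : CuspForm (Gamma0 N) k →ₗ[ℂ] ℂ)
    (hφ : ∀ f, φ f = per ((⇑f ∣[k] β) * p) (ι g)) : φ ∈ lattice N k m := by
  obtain ⟨p', g', hp', h⟩ := per_slash_upper (N := N) hk hβ h10 hp g
  exact Submodule.subset_span ⟨p', g', hp', fun f ↦ by rw [hφ, h]⟩

/-- The functional `f ↦ per ((f ∣ β) * p) g`. -/
def perFun' (N : ℕ) [NeZero N] (hk : k = m + 2) {p : ℍ → ℂ} (hp : IsPoly ℂ m p)
    {β : GL (Fin 2) ℝ} (hβ : β ∈ intMat) (h : SL(2, ℤ)) :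
    CuspForm (Gamma0 N) k →ₗ[ℂ] ℂ where
  toFun f := per ((⇑f ∣[k] β) * p) (ι h)
  map_add' f f' := by
    rw [← per_add (adm_mul hk f hβ hp) (adm_mul hk f' hβ hp) (mapGL_mem h)]
    congr 1
    rw [← add_mul, ← SlashAction.add_slash]
    rfl
  map_smul' c f := by
    rw [RingHom.id_apply, smul_eq_mul, ← per_smul c (adm_mul hk f hβ hp) (mapGL_mem h)]
    congr 1
    have hσ : UpperHalfPlane.σ β c = c := by
      rw [UpperHalfPlane.σ, if_pos (det_pos_of_mem hβ)]; rfl
    rw [← smul_mul_assoc]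
    congr 1
    have h1 := ModularForm.smul_slash k β (⇑f) c
    rw [hσ] at h1
    exact h1

theorem perFun'_apply (hk : k = m + 2) {p : ℍ → ℂ} (hp : IsPoly ℂ m p)
    {β : GL (Fin 2) ℝ} (hβ : β ∈ intMat) (h : SL(2, ℤ)) (f : CuspForm (Gamma0 N) k) :
    perFun' N hk hp hβ h f = per ((⇑f ∣[k] β) * p) (ι h) := rfl

theorem comp_mem_lattice_of_generator (hk : k = m + 2) {S : Set ℕ}
    {T : Module.End ℂ (CuspForm (Gamma0 N) k)} (hT : T ∈ CuspForm.heckeGenerators N k S)
    {φ : CuspForm (Gamma0 N) k →ₗ[ℂ] ℂ} (hφ : φ ∈ lattice N k m) :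
    φ ∘ₗ T ∈ lattice N k m := by
  induction hφ using Submodule.span_induction with
  | zero => rw [LinearMap.zero_comp]; exact Submodule.zero_mem _
  | add x y _ _ hx hy => rw [LinearMap.add_comp]; exact Submodule.add_mem _ hx hy
  | smul c x _ hx =>
    rw [LinearMap.smul_comp]; exact Submodule.smul_mem _ _ hx
  | mem φ hφ =>
    obtain ⟨p, g, hp, hφ⟩ := hφ
    rcases hT with ⟨ℓ, hℓ, hℓN, -, rfl⟩ | ⟨q, hqN, hq, -, rfl⟩
    · have h0 := hℓ.ne_zero
      have h1 : φ ∘ₗ CuspForm.heckeTLin k hℓ hℓN =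
          (∑ j ∈ Finset.range ℓ, perFun' N hk hp.toComplex (heckeMatrix_mem h0 j) g) +
            perFun' N hk hp.toComplex (heckeDiagMatrix_mem h0) g := by
        ext f
        rw [LinearMap.comp_apply, hφ, CuspForm.coe_heckeTLin_apply, ModularForm.heckeT_def,
          add_mul, Finset.sum_mul, per_add (Adm.sum _ fun j _ ↦
            adm_mul hk f (heckeMatrix_mem h0 j) hp.toComplex)
            (adm_mul hk f (heckeDiagMatrix_mem h0) hp.toComplex) (mapGL_mem _),
          per_sum _ (fun j _ ↦ adm_mul hk f (heckeMatrix_mem h0 j) hp.toComplex) (mapGL_mem _),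
          LinearMap.add_apply, LinearMap.sum_apply]
        rfl
      rw [h1]
      exact Submodule.add_mem _ (Submodule.sum_mem _ fun j _ ↦
        mem_lattice_of hk (heckeMatrix_mem h0 j) (heckeMatrix_one_zero h0 j) hp g _ fun f ↦ rfl)
        (mem_lattice_of hk (heckeDiagMatrix_mem h0) (heckeDiagMatrix_one_zero h0) hp g _ fun f ↦ rfl)
    · have h0 := hq.ne_zero
      have h1 : φ ∘ₗ CuspForm.heckeULin k hqN =
          (∑ j ∈ Finset.range q, perFun' N hk hp.toComplex (heckeMatrix_mem h0 j) g) := by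
        ext f
        rw [LinearMap.comp_apply, hφ, CuspForm.coe_heckeULin_apply, ModularForm.heckeU_def,
          Finset.sum_mul,
          per_sum _ (fun j _ ↦ adm_mul hk f (heckeMatrix_mem h0 j) hp.toComplex) (mapGL_mem _),
          LinearMap.sum_apply]
        rfl
      rw [h1]
      exact Submodule.sum_mem _ fun j _ ↦
        mem_lattice_of hk (heckeMatrix_mem h0 j) (heckeMatrix_one_zero h0 j) hp g _ fun f ↦ rfl

theorem comp_mem_lattice (hk : k = m + 2) {S : Set ℕ}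
    {T : Module.End ℂ (CuspForm (Gamma0 N) k)} (hT : T ∈ CuspForm.heckeAlgebra N k S)
    {φ : CuspForm (Gamma0 N) k →ₗ[ℂ] ℂ} (hφ : φ ∈ lattice N k m) :
    φ ∘ₗ T ∈ lattice N k m := by
  induction hT using Algebra.adjoin_induction generalizing φ with
  | mem x hx => exact comp_mem_lattice_of_generator hk hx hφ
  | algebraMap r =>
    have : φ ∘ₗ (algebraMap ℤ (Module.End ℂ (CuspForm (Gamma0 N) k)) r) = r • φ := by
      ext f
      simp
    rw [this]; exact Submodule.smul_mem _ _ hφ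
  | add x y _ _ hx hy => rw [LinearMap.comp_add]; exact Submodule.add_mem _ (hx hφ) (hy hφ)
  | mul x y _ _ hx hy =>
    have : φ ∘ₗ (x * y) = (φ ∘ₗ x) ∘ₗ y := rfl
    rw [this]; exact hy (hx hφ)

end Fermat.Agent.H16
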