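import Mathlib
import Fermat.Agent.H16.Hecke
import Fermat.Prelude.Def_ModularCurve_PeriodHomPair

/-!
# Weight two: the prelude period map
-/

set_option autoImplicit false

open UpperHalfPlane hiding I
open Complex Filter Topology Function CongruenceSubgroup
open scoped Manifold MatrixGroups ModularForm Real

noncomputable section

namespace Fermat.Agent.H16

local notation "ι" => Matrix.SpecialLinearGroup.mapGL ℝ

variable {N : ℕ} [NeZero N]

theorem cuspidal_coe {k : ℤ} (f : CuspForm (Gamma0 N) k) : Cuspidal (⇑f) := by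
  have := cuspidal_slash f (one_mem intMat)
  rwa [SlashAction.slash_one] at this

theorem adm_coe (f : CuspForm (Gamma0 N) 2) : Adm (⇑f) :=
  fun _ hγ ↦ (cuspidal_slash f hγ).hasPrim

omit [NeZero N] in
theorem slash_eq_of_mem {k : ℤ} (f : CuspForm (Gamma0 N) k) {γ : SL(2, ℤ)} (hγ : γ ∈ Gamma0 N) :
    ⇑f ∣[k] ι γ = ⇑f := SlashInvariantFormClass.slash_action_eq f _ ⟨γ, hγ, rfl⟩

theorem prim_smul_sub (f : CuspForm (Gamma0 N) 2) {γ : SL(2, ℤ)} (hγ : γ ∈ Gamma0 N) (z : ℍ) :
    prim (⇑f) (γ • z) - prim (⇑f) z = per (⇑f) (ι γ) := by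
  have := per_eq (adm_coe f) (mapGL_mem γ) z
  rw [slash_eq_of_mem f hγ] at this
  exact this

theorem hasEquivariantPrimitive_prim (f : CuspForm (Gamma0 N) 2) :
    ModularCurve.HasEquivariantPrimitive N f (prim (⇑f)) := by
  refine ⟨(cuspidal_coe f).hasPrim.isPrim.deriv, (cuspidal_coe f).prim.zero,
    fun γ ↦ ⟨per (⇑f) (ι γ.1), fun z ↦ prim_smul_sub f γ.2 z⟩, fun δ ↦ ⟨per (⇑f) (ι δ), ?_⟩⟩
  have h1 : (fun w : ℍ ↦ prim (⇑f) (δ • w)) =
      fun w : ℍ ↦ prim (⇑f ∣[(2 : ℤ)] ι δ) w + per (⇑f) (ι δ) := by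
    funext w
    have := per_eq (adm_coe f) (mapGL_mem δ) w
    rw [← this]
    change prim (⇑f) (ι δ • w) = _
    ring
  rw [h1]
  have h2 : Tendsto (prim (⇑f ∣[(2 : ℤ)] ι δ)) atImInfty (𝓝 0) :=
    (cuspidal_slash f (mapGL_mem δ)).prim.zero
  simpa using h2.add_const (per (⇑f) (ι δ))

/-- The prelude's period map is the period cocycle. -/
theorem periodMap_apply (f : CuspForm (Gamma0 N) 2) (γ : Gamma0 N) :
    ModularCurve.periodMap N f (Additive.ofMul γ) = per (⇑f) (ι (γ : SL(2, ℤ))) := by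
  obtain ⟨F₀, h₀, he⟩ := ModularCurve.periodMap_def N f (hasEquivariantPrimitive_prim f)
  rw [he, ModularCurve.Period.IsEquivariantPrimitive.periodHom_apply]
  have h1 := h₀.2.2.1.sub_eq_period γ UpperHalfPlane.I
  rw [← h1]
  have h2 := exists_const_of_deriv_eq h₀.1 (cuspidal_coe f).hasPrim.isPrim.deriv
    ((γ : SL(2, ℤ)) • UpperHalfPlane.I) UpperHalfPlane.I
  rw [← prim_smul_sub f γ.2 UpperHalfPlane.I]
  linear_combination h2

theorem existsPeriodMapLinear : ModularCurve.ExistsPeriodMapLinear N := by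
  refine ⟨{ toFun := ModularCurve.periodMap N, map_add' := ?_, map_smul' := ?_ }, fun _ ↦ rfl⟩
  · intro f g
    refine AddMonoidHom.ext fun γ ↦ ?_
    change ModularCurve.periodMap N (f + g) (Additive.ofMul γ.toMul) =
      ModularCurve.periodMap N f (Additive.ofMul γ.toMul) +
      ModularCurve.periodMap N g (Additive.ofMul γ.toMul)
    rw [periodMap_apply, periodMap_apply, periodMap_apply,
      ← per_add (adm_coe f) (adm_coe g) (mapGL_mem _)]
    rfl
  · intro c f
    refine AddMonoidHom.ext fun γ ↦ ?_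
    change ModularCurve.periodMap N (c • f) (Additive.ofMul γ.toMul) =
      c • ModularCurve.periodMap N f (Additive.ofMul γ.toMul)
    rw [periodMap_apply, periodMap_apply, smul_eq_mul, ← per_smul c (adm_coe f) (mapGL_mem _)]
    rfl

/-- An element of `SL(2, ℤ)` with `trace ^ 2 = 4` fixes a cusp. -/
theorem exists_fix_cusp {γ : SL(2, ℤ)} (h : (γ : Matrix (Fin 2) (Fin 2) ℤ).trace ^ 2 = 4) :
    ∃ (g : SL(2, ℤ)) (β : GL (Fin 2) ℝ), β ∈ intMat ∧ β 1 0 = 0 ∧ ι γ * ι g = ι g * β := by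
  -- the fixed vector `(v0, v1)`
  set a := γ.1 0 0 with ha
  set b := γ.1 0 1 with hb
  set c := γ.1 1 0 with hc
  set d := γ.1 1 1 with hd
  have hdet : a * d - b * c = 1 := by
    have := γ.2; rwa [Matrix.det_fin_two] at this
  have htr : (a + d) ^ 2 = 4 := by rwa [Matrix.trace_fin_two] at h
  by_cases hc0 : c = 0
  · refine ⟨1, ι γ, mapGL_mem γ, ?_, by simp⟩
    have : (ι γ) 1 0 = (c : ℝ) := by simp [hc]
    rw [this, hc0]; simp
  · set x : ℚ := ((a - d : ℤ) : ℚ) / ((2 * c : ℤ) : ℚ) with hx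
    have hcusp : IsCusp (((x : ℝ)) : OnePoint ℝ) 𝒮ℒ := by
      rw [isCusp_SL2Z_iff]; exact ⟨(x : OnePoint ℚ), rfl⟩
    obtain ⟨g, hg⟩ := isCusp_SL2Z_iff'.mp hcusp
    have e00 : (ι γ) 0 0 = (a : ℝ) := by simp [ha]
    have e01 : (ι γ) 0 1 = (b : ℝ) := by simp [hb]
    have e10 : (ι γ) 1 0 = (c : ℝ) := by simp [hc]
    have e11 : (ι γ) 1 1 = (d : ℝ) := by simp [hd]
    have hc0' : (c : ℝ) ≠ 0 := by exact_mod_cast hc0
    have hxr : (x : ℝ) = ((a : ℝ) - d) / (2 * c) := by rw [hx]; push_cast; rfl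
    have htr' : ((a : ℝ) + d) ^ 2 = 4 := by exact_mod_cast htr
    have hdet' : (a : ℝ) * d - b * c = 1 := by exact_mod_cast hdet
    have hfix : ι γ • ((x : ℝ) : OnePoint ℝ) = ((x : ℝ) : OnePoint ℝ) := by
      rw [OnePoint.smul_some_eq_ite, e00, e01, e10, e11]
      have hden : (c : ℝ) * x + d = ((a : ℝ) + d) / 2 := by rw [hxr]; field_simp; ring
      have hden0 : (c : ℝ) * x + d ≠ 0 := by
        rw [hden]; intro h0
        have : (a : ℝ) + d = 0 := by linarith
        rw [this] at htr'; norm_num at htr'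
      rw [if_neg hden0]
      congr 1
      rw [div_eq_iff hden0, hden, hxr]
      field_simp
      linear_combination (-(4 : ℝ)) * hdet' + htr'
    refine ⟨g, ι g⁻¹ * (ι γ * ι g), mul_mem (mapGL_mem _) (mul_mem (mapGL_mem _) (mapGL_mem _)),
      ?_, ?_⟩
    · rw [← OnePoint.smul_infty_eq_self_iff, mul_smul, mul_smul, ← hg, hfix, hg, ← mul_smul,
        ← map_mul, inv_mul_cancel, map_one, one_smul]
    · rw [← mul_assoc (ι g), ← map_mul ι g, mul_inv_cancel, map_one, one_mul]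

/-- The period vanishes on parabolic elements. -/
theorem per_eq_zero_of_trace (f : CuspForm (Gamma0 N) 2) {γ : SL(2, ℤ)} (hγ : γ ∈ Gamma0 N)
    (h : (γ : Matrix (Fin 2) (Fin 2) ℤ).trace ^ 2 = 4) : per (⇑f) (ι γ) = 0 := by
  obtain ⟨g, β, hβ, h10, he⟩ := exists_fix_cusp h
  have h1 := per_mul (adm_coe f) (mapGL_mem γ) (mapGL_mem g)
  have h2 := per_mul (adm_coe f) (mapGL_mem g) hβ
  rw [slash_eq_of_mem f hγ] at h1
  rw [per_upper ((adm_coe f).slash (mapGL_mem g)) hβ h10, add_zero, ← he, h1] at h2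
  linear_combination h2

theorem isParabolicHom_periodMap (f : CuspForm (Gamma0 N) 2) :
    ModularCurve.Period.IsParabolicHom (Gamma0 N) (ModularCurve.periodMap N f) := by
  intro γ hγ
  rw [periodMap_apply]
  exact per_eq_zero_of_trace f γ.2 hγ

theorem periodMap_mem_parabolicHoms (f : CuspForm (Gamma0 N) 2) :
    ModularCurve.periodMap N f ∈ ModularCurve.Period.parabolicHoms ℂ (Gamma0 N) ℂ :=
  isParabolicHom_periodMap f

/-- A weight two cusp form with vanishing periods on `Γ₀(N)` is zero. -/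
theorem eq_zero_of_per_Gamma0 (f : CuspForm (Gamma0 N) 2)
    (h : ∀ γ ∈ Gamma0 N, per (⇑f) (ι γ) = 0) : f = 0 := by
  have hf := cuspidal_coe f
  let F : ModularForm (Gamma0 N) 0 :=
    { toFun := prim (⇑f)
      slash_action_eq' := by
        rintro _ ⟨g, hg, rfl⟩
        funext z
        have h1 := prim_smul_sub f hg z
        rw [h g hg, sub_eq_zero] at h1
        have h2 := ModularForm.SL_slash_apply (k := 0) (prim (⇑f)) g z
        rw [neg_zero, zpow_zero, mul_one, h1] at h2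
        exact h2
      holo' := hf.prim.holo
      bdd_at_cusps' := by
        intro c hc
        rw [Subgroup.IsArithmetic.isCusp_iff_isCusp_SL2Z] at hc
        rw [OnePoint.isBoundedAt_iff_forall_SL2Z hc]
        intro g _
        have h1 : (prim (⇑f)) ∣[(0 : ℤ)] g =
            fun w : ℍ ↦ prim (⇑f ∣[(2 : ℤ)] ι g) w + per (⇑f) (ι g) := by
          funext w
          have h3 := per_eq (adm_coe f) (mapGL_mem g) w
          rw [← h3, ModularForm.SL_slash_apply, neg_zero, zpow_zero, mul_one]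
          change prim (⇑f) (ι g • w) = _
          ring
        change IsBoundedAtImInfty ((prim (⇑f)) ∣[(0 : ℤ)] g)
        rw [h1]
        have h2 : IsBoundedAtImInfty (prim (⇑f ∣[(2 : ℤ)] ι g)) :=
          (cuspidal_slash f (mapGL_mem g)).prim.zero.isBoundedAtImInfty
        exact h2.add (Filter.const_boundedAtFilter _ _) }
  have hF : F = 0 := by
    apply ModularForm.sturm_bound_Gamma0 N
    intro n hn
    have hn0 : n = 0 := by simpa using hn
    subst hn0
    have h3 : cuspFunction 1 (⇑F) 0 = 0 := hf.prim.zero.cuspFunction_apply_zero one_pos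
    rw [qExpansion_coeff]; simp [h3]
  have hF2 : prim (⇑f) = 0 := by
    have : ⇑F = 0 := by rw [hF]; rfl
    exact this
  ext τ
  have h1 := hf.hasPrim.isPrim.deriv τ
  rw [hF2] at h1
  have h2 : HasDerivAt ((0 : ℍ → ℂ) ∘ ofComplex) 0 (τ : ℂ) := hasDerivAt_const (τ : ℂ) (0 : ℂ)
  exact h1.unique h2

theorem eq_zero_of_periodMap (f : CuspForm (Gamma0 N) 2) (h : ModularCurve.periodMap N f = 0) :
    f = 0 := by
  refine eq_zero_of_per_Gamma0 f fun γ hγ ↦ ?_
  have := periodMap_apply f ⟨γ, hγ⟩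
  rw [h] at this
  exact this.symm

end Fermat.Agent.H16
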