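import Mathlib
import Fermat.Agent.H16.Hecke

/-!
# The period lattice separates points; finiteness of the Hecke algebra
-/

set_option autoImplicit false

open UpperHalfPlane hiding I
open Complex Filter Topology Function CongruenceSubgroup
open scoped Manifold MatrixGroups ModularForm Real

noncomputable section

namespace Fermat.Agent.H16

local notation "ι" => Matrix.SpecialLinearGroup.mapGL ℝ

variable {N : ℕ} [NeZero N] {k : ℤ} {m : ℕ}

/-- `τ ↦ (τ - w) ^ m` is a polynomial function. -/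
theorem isPoly_sub_pow (w : ℂ) : IsPoly ℂ m (fun τ : ℍ ↦ ((τ : ℂ) - w) ^ m) := by
  refine ⟨(Polynomial.X - Polynomial.C w) ^ m, ?_, fun τ ↦ by simp⟩
  refine Polynomial.natDegree_pow_le.trans ?_
  rw [Polynomial.natDegree_X_sub_C, mul_one]

theorem per_eq_zero_of_int (hk : k = m + 2) (f : CuspForm (Gamma0 N) k)
    (h : ∀ (p : ℍ → ℂ) (g : SL(2, ℤ)), IsPoly ℤ m p → per (⇑f * p) (ι g) = 0)
    {p : ℍ → ℂ} (hp : IsPoly ℂ m p) (g : SL(2, ℤ)) : per (⇑f * p) (ι g) = 0 := by
  obtain ⟨c, hc⟩ := isPoly_eq_sum hp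
  rw [hc, Finset.mul_sum]
  have h2 : ∀ i ∈ Finset.range (m + 1), Adm (⇑f * (algebraMap ℂ ℂ (c i) • mono i)) := by
    intro i hi
    rw [mul_smul_comm]
    exact (adm_mul' hk f
      (isPoly_mono (Nat.lt_succ_iff.mp (Finset.mem_range.mp hi)))).smul _
  rw [per_sum _ h2 (mapGL_mem _)]
  refine Finset.sum_eq_zero fun i hi ↦ ?_
  have hi' : i ≤ m := Nat.lt_succ_iff.mp (Finset.mem_range.mp hi)
  rw [mul_smul_comm, per_smul _ (adm_mul' hk f (isPoly_mono hi')) (mapGL_mem _),
    h _ g (isPoly_mono hi'), mul_zero]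

theorem sub_smul_smul (g : SL(2, ℤ)) (u z : ℍ) :
    ((ι g • u : ℍ) : ℂ) - ((ι g • z : ℍ) : ℂ) = ((u : ℂ) - z) / (denom (ι g) u * denom (ι g) z) := by
  have hd : 0 < (ι g).det.val := det_pos_of_mem (mapGL_mem g)
  have hdet : ((ι g) 0 0 : ℝ) * (ι g) 1 1 - (ι g) 0 1 * (ι g) 1 0 = 1 := by
    have h1 : (ι g).det.val = 1 := by simp
    rw [Matrix.GeneralLinearGroup.val_det_apply, Matrix.det_fin_two] at h1
    exact h1
  have hdet' : (((ι g) 0 0 : ℝ) : ℂ) * ((ι g) 1 1 : ℝ) - ((ι g) 0 1 : ℝ) * ((ι g) 1 0 : ℝ) = 1 := by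
    exact_mod_cast hdet
  rw [UpperHalfPlane.coe_smul_of_det_pos hd, UpperHalfPlane.coe_smul_of_det_pos hd]
  have hu := denom_ne_zero (ι g) u
  have hz := denom_ne_zero (ι g) z
  rw [div_sub_div _ _ hu hz]
  congr 1
  simp only [UpperHalfPlane.num, UpperHalfPlane.denom]
  linear_combination ((u : ℂ) - z) * hdet'

/-- If all periods of `f` vanish, its Eichler integral is slash-equivariant. -/
theorem eichler_slash (hk : k = m + 2) (f : CuspForm (Gamma0 N) k)
    (h : ∀ (p : ℍ → ℂ) (g : SL(2, ℤ)), IsPoly ℤ m p → per (⇑f * p) (ι g) = 0) (g : SL(2, ℤ)) :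
    (prim^[m + 1] (⇑f)) ∣[-(m : ℤ)] ι g = prim^[m + 1] (⇑f ∣[k] ι g) := by
  funext z
  have hd : 0 < (ι g).det.val := det_pos_of_mem (mapGL_mem g)
  have hf : Cuspidal (⇑f) := by
    have := cuspidal_slash f (one_mem intMat)
    rwa [SlashAction.slash_one] at this
  have hfg : Cuspidal (⇑f ∣[k] ι g) := cuspidal_slash f (mapGL_mem g)
  set w : ℂ := ((ι g • z : ℍ) : ℂ) with hw
  have hp : IsPoly ℂ m (fun τ : ℍ ↦ ((τ : ℂ) - w) ^ m) := isPoly_sub_pow w
  have h0 := per_eq_zero_of_int hk f h hp g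
  have hadm := adm_mul' hk f hp
  have h1 := per_eq hadm (mapGL_mem g) z
  rw [h0, mul_slash_two_SL hk, sub_eq_zero] at h1
  have hden := denom_ne_zero (ι g) z
  -- compute the slash of the polynomial
  have h2 : (fun τ : ℍ ↦ ((τ : ℂ) - w) ^ m) ∣[-(m : ℤ)] ι g =
      ((denom (ι g) z) ^ m)⁻¹ • (fun τ : ℍ ↦ ((τ : ℂ) - z) ^ m) := by
    funext u
    have hu := denom_ne_zero (ι g) u
    rw [ModularForm.slash_apply, UpperHalfPlane.σ, if_pos hd]
    have hdet : |(ι g).det.val| = 1 := by simp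
    rw [hdet, hw, sub_smul_smul]
    simp only [ContinuousAlgEquiv.refl_apply, ofReal_one, one_zpow, mul_one, neg_neg, zpow_natCast,
      Pi.smul_apply, smul_eq_mul]
    rw [div_pow, mul_pow]
    field_simp
  rw [h2, mul_smul_comm] at h1
  have h3 : HasPrim ((⇑f ∣[k] ι g) * (fun τ : ℍ ↦ ((τ : ℂ) - z) ^ m)) :=
    hfg.hasPrim_mul (isPoly_sub_pow (m := m) (z : ℂ))
  rw [(h3.isPrim.smul _).prim_eq] at h1
  have h4 : prim (⇑f * (fun τ : ℍ ↦ ((τ : ℂ) - w) ^ m)) (ι g • z) =
      (-1) ^ m * (m.factorial : ℂ) * (prim^[m + 1] (⇑f)) (ι g • z) :=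
    hf.prim_mul_pow_self m (ι g • z)
  have h5 : prim ((⇑f ∣[k] ι g) * (fun τ : ℍ ↦ ((τ : ℂ) - z) ^ m)) z =
      (-1) ^ m * (m.factorial : ℂ) * (prim^[m + 1] (⇑f ∣[k] ι g)) z :=
    hfg.prim_mul_pow_self m z
  rw [h4, Pi.smul_apply, h5, smul_eq_mul] at h1
  have hfac : ((-1 : ℂ)) ^ m * (m.factorial : ℂ) ≠ 0 :=
    mul_ne_zero (pow_ne_zero _ (by norm_num)) (by exact_mod_cast m.factorial_ne_zero)
  have h6 : (prim^[m + 1] (⇑f)) (ι g • z) =
      (denom (ι g) z ^ m)⁻¹ * (prim^[m + 1] (⇑f ∣[k] ι g)) z := by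
    apply mul_left_cancel₀ hfac
    rw [h1]; ring
  rw [ModularForm.slash_apply, h6, UpperHalfPlane.σ, if_pos hd]
  have hdet : |(ι g).det.val| = 1 := by simp
  rw [hdet]
  simp only [ContinuousAlgEquiv.refl_apply, ofReal_one, one_zpow, mul_one, neg_neg, zpow_natCast]
  field_simp

/-- Injectivity of `prim` on cuspidal functions. -/
theorem Cuspidal.eq_zero_of_prim {f : ℍ → ℂ} (hf : Cuspidal f) (h : H16.prim f = 0) : f = 0 := by
  funext τ
  have h1 := hf.hasPrim.isPrim.deriv τ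
  rw [h] at h1
  have h2 : HasDerivAt ((0 : ℍ → ℂ) ∘ ofComplex) 0 (τ : ℂ) := hasDerivAt_const (τ : ℂ) (0 : ℂ)
  exact h1.unique h2

theorem Cuspidal.eq_zero_of_iterate_prim {f : ℍ → ℂ} (hf : Cuspidal f) (n : ℕ)
    (h : H16.prim^[n] f = 0) : f = 0 := by
  induction n generalizing f with
  | zero => simpa using h
  | succ n ih =>
    rw [Function.iterate_succ_apply] at h
    exact hf.eq_zero_of_prim (ih hf.prim h)

/-- The periods separate cusp forms. -/
theorem eq_zero_of_per (hk : k = m + 2) (f : CuspForm (Gamma0 N) k)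
    (h : ∀ (p : ℍ → ℂ) (g : SL(2, ℤ)), IsPoly ℤ m p → per (⇑f * p) (ι g) = 0) : f = 0 := by
  have hf : Cuspidal (⇑f) := by
    have := cuspidal_slash f (one_mem intMat)
    rwa [SlashAction.slash_one] at this
  let F : CuspForm (Gamma0 N) (-(m : ℤ)) :=
    { toFun := prim^[m + 1] (⇑f)
      slash_action_eq' := by
        rintro _ ⟨g, hg, rfl⟩
        have h1 := eichler_slash hk f h g
        have h2 : ⇑f ∣[k] ι g = ⇑f := SlashInvariantFormClass.slash_action_eq f _ ⟨g, hg, rfl⟩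
        rw [h2] at h1
        exact h1
      holo' := (hf.iterate_prim (m + 1)).holo
      zero_at_cusps' := by
        intro c hc
        rw [Subgroup.IsArithmetic.isCusp_iff_isCusp_SL2Z] at hc
        rw [OnePoint.isZeroAt_iff_forall_SL2Z hc]
        intro g _
        have h1 := eichler_slash hk f h g
        rw [ModularForm.SL_slash]
        change IsZeroAtImInfty ((prim^[m + 1] (⇑f)) ∣[-(m : ℤ)] ι g)
        rw [h1]
        exact ((cuspidal_slash f (mapGL_mem g)).iterate_prim (m + 1)).zero }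
  have hF : F = 0 := cuspForm_eq_zero_of_nonpos (by simp) F
  have hF2 : prim^[m + 1] (⇑f) = 0 := by
    have : ⇑F = 0 := by rw [hF]; rfl
    exact this
  have h3 := hf.eq_zero_of_iterate_prim (m + 1) hF2
  ext τ
  exact congrFun h3 τ

theorem eq_zero_of_lattice (hk : k = m + 2) (f : CuspForm (Gamma0 N) k)
    (h : ∀ φ ∈ lattice N k m, φ f = 0) : f = 0 := by
  refine eq_zero_of_per hk f fun p g hp ↦ ?_
  have h1 := h (perFun N hk hp.toComplex 1 g) (Submodule.subset_span ⟨p, g, hp, fun f ↦ by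
    rw [perFun_apply, map_one, SlashAction.slash_one]⟩)
  rwa [perFun_apply, map_one, SlashAction.slash_one] at h1

/-- Finiteness of the Hecke algebra in weight `≥ 2`. -/
theorem moduleFinite_of_weight_ge_two (hk : k = m + 2) (S : Set ℕ) :
    Module.Finite ℤ (CuspForm.heckeAlgebra N k S) := by
  obtain ⟨s, hs⟩ := lattice_fg (N := N) hk
  have hmem : ∀ φ : s, (φ : CuspForm (Gamma0 N) k →ₗ[ℂ] ℂ) ∈ lattice N k m := fun φ ↦ by
    rw [← hs]; exact Submodule.subset_span φ.2
  have hfin : Module.Finite ℤ (lattice N k m) := Module.Finite.iff_fg.mpr ⟨s, hs⟩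
  let Φ : CuspForm.heckeAlgebra N k S →ₗ[ℤ] (s → lattice N k m) :=
    { toFun := fun T φ ↦ ⟨(φ : CuspForm (Gamma0 N) k →ₗ[ℂ] ℂ) ∘ₗ T.1,
        comp_mem_lattice hk T.2 (hmem φ)⟩
      map_add' := by
        intro T T'
        funext φ
        apply Subtype.ext
        change (φ : CuspForm (Gamma0 N) k →ₗ[ℂ] ℂ) ∘ₗ (T.1 + T'.1) = _
        rw [LinearMap.comp_add]; rfl
      map_smul' := by
        intro c T
        funext φ
        apply Subtype.ext
        change (φ : CuspForm (Gamma0 N) k →ₗ[ℂ] ℂ) ∘ₗ (c • T.1) = c • (φ.1 ∘ₗ T.1)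
        ext f
        simp }
  have hinj : Function.Injective Φ := by
    rw [← LinearMap.ker_eq_bot, LinearMap.ker_eq_bot']
    intro T hT
    apply Subtype.ext
    have h1 : ∀ φ ∈ lattice N k m, φ ∘ₗ T.1 = 0 := by
      intro φ hφ
      rw [← hs] at hφ
      induction hφ using Submodule.span_induction with
      | mem φ hφ =>
        have := congrFun hT ⟨φ, hφ⟩
        exact congrArg Subtype.val this
      | zero => exact LinearMap.zero_comp _
      | add x y _ _ hx hy => rw [LinearMap.add_comp, hx, hy, add_zero]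
      | smul c x _ hx => rw [LinearMap.smul_comp, hx, smul_zero]
    change T.1 = 0
    apply LinearMap.ext
    intro f
    refine eq_zero_of_lattice hk (T.1 f) fun φ hφ ↦ ?_
    have := LinearMap.congr_fun (h1 φ hφ) f
    exact this
  have : IsNoetherian ℤ (s → lattice N k m) := inferInstance
  exact Module.Finite.of_injective Φ hinj

/-- Finiteness of the Hecke algebra when the space of cusp forms is zero. -/
theorem moduleFinite_of_subsingleton (h : ∀ f : CuspForm (Gamma0 N) k, f = 0) (S : Set ℕ) :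
    Module.Finite ℤ (CuspForm.heckeAlgebra N k S) := by
  have : Subsingleton (CuspForm.heckeAlgebra N k S) := by
    refine ⟨fun T T' ↦ Subtype.ext (LinearMap.ext fun f ↦ ?_)⟩
    rw [h (T.1 f), h (T'.1 f)]
  infer_instance

theorem moduleFinite_heckeAlgebra (N : ℕ) [NeZero N] (k : ℤ) (S : Set ℕ) :
    Module.Finite ℤ (CuspForm.heckeAlgebra N k S) := by
  by_cases hk : k ≤ 0
  · exact moduleFinite_of_subsingleton (cuspForm_eq_zero_of_nonpos hk) S
  · by_cases hk1 : k = 1
    · exact moduleFinite_of_subsingleton (cuspForm_eq_zero_of_odd (by rw [hk1]; exact odd_one)) S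
    · have h2 : k = ((k - 2).toNat : ℤ) + 2 := by omega
      exact moduleFinite_of_weight_ge_two h2 S

end Fermat.Agent.H16
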