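import Mathlib
import Fermat.Agent.H12.InertiaVal
import Fermat.Agent.H09.TwoAdic
import Fermat.Agent.N4.Final

/-!
# The discrete valuation on the inertia field
-/

set_option autoImplicit false
set_option linter.unusedSectionVars false

noncomputable section

namespace Fermat.Agent.H16.Ram

open Fermat.Agent.H09
open WithZero

variable {L : Type*} [Field L] [CharZero L] [IsGalois ℚ L]

/-- the inertia field -/
def IFd (A : ValuationSubring L) : IntermediateField ℚ L :=
  IntermediateField.fixedField (A.inertiaSubgroupIn ℚ)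

theorem mem_IFd {A : ValuationSubring L} {x : L} :
    x ∈ IFd A ↔ ∀ σ ∈ A.inertiaSubgroupIn ℚ, σ x = x := by
  rw [IFd, IntermediateField.mem_fixedField_iff]

variable {A : ValuationSubring L} {q : ℕ}

theorem val_q_pos (hq : q.Prime) : 0 < A.valuation (q : L) := by
  rw [zero_lt_iff, Ne, map_eq_zero]
  exact_mod_cast hq.ne_zero

theorem val_q_lt (hA : A.LiesOverPrime q) : A.valuation (q : L) < 1 := val_natCast_lt_one hA

theorem zpow_le_iff (hq : q.Prime) (hA : A.LiesOverPrime q) {m n : ℤ} :
    A.valuation (q : L) ^ m ≤ A.valuation (q : L) ^ n ↔ n ≤ m :=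
  (zpow_right_strictAnti₀ (val_q_pos hq) (val_q_lt hA)).le_iff_ge

theorem zpow_inj' (hq : q.Prime) (hA : A.LiesOverPrime q) {m n : ℤ}
    (h : A.valuation (q : L) ^ m = A.valuation (q : L) ^ n) : m = n :=
  (zpow_right_strictAnti₀ (val_q_pos hq) (val_q_lt hA)).injective h

theorem exists_ord (hq : q.Prime) (hA : A.LiesOverPrime q) (x : IFd A) (hx : x ≠ 0) :
    ∃ n : ℤ, A.valuation (x : L) = A.valuation (q : L) ^ n :=
  Fermat.Agent.H12.exists_valuation_eq_zpow hq hA (x : L) (by exact_mod_cast hx)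
    (mem_IFd.mp x.2)

open Classical in
/-- the order -/
def ordF (hq : q.Prime) (hA : A.LiesOverPrime q) (x : IFd A) : ℤ :=
  if h : x = 0 then 0 else (exists_ord hq hA x h).choose

theorem val_eq (hq : q.Prime) (hA : A.LiesOverPrime q) {x : IFd A} (hx : x ≠ 0) :
    A.valuation (x : L) = A.valuation (q : L) ^ ordF hq hA x := by
  rw [ordF, dif_neg hx]
  exact (exists_ord hq hA x hx).choose_spec

open Classical in
/-- the valuation of the inertia field, normalised by `v(q) = exp(-1)` -/
def vF (hq : q.Prime) (hA : A.LiesOverPrime q) : Valuation (IFd A) ℤᵐ⁰ where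
  toFun x := if x = 0 then 0 else exp (-ordF hq hA x)
  map_zero' := if_pos rfl
  map_one' := by
    rw [if_neg one_ne_zero]
    have h := val_eq hq hA (x := (1 : IFd A)) one_ne_zero
    have h1 : (((1 : IFd A) : IFd A) : L) = 1 := rfl
    rw [h1, map_one, ← zpow_zero (A.valuation (q : L))] at h
    rw [← zpow_inj' hq hA h, neg_zero, exp_zero]
  map_mul' x y := by
    by_cases hx : x = 0
    · simp [hx]
    by_cases hy : y = 0
    · simp [hy]
    rw [if_neg hx, if_neg hy, if_neg (mul_ne_zero hx hy), ← exp_add]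
    have h := val_eq hq hA (mul_ne_zero hx hy)
    have h1 : ((x * y : IFd A) : L) = (x : L) * (y : L) := rfl
    have hq0 : A.valuation (q : L) ≠ 0 := (val_q_pos hq).ne'
    rw [h1, map_mul, val_eq hq hA hx, val_eq hq hA hy, ← zpow_add₀ hq0] at h
    rw [← zpow_inj' hq hA h]
    congr 1
    ring
  map_add_le_max' x y := by
    by_cases hx : x = 0
    · simp [hx]
    by_cases hy : y = 0
    · simp [hy]
    by_cases hxy : x + y = 0
    · rw [if_pos hxy]
      exact zero_le
    rw [if_neg hx, if_neg hy, if_neg hxy]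
    have h := A.valuation.map_add (x : L) (y : L)
    have h1 : (x : L) + (y : L) = ((x + y : IFd A) : L) := rfl
    rw [h1, val_eq hq hA hx, val_eq hq hA hy, val_eq hq hA hxy, le_max_iff, zpow_le_iff hq hA,
      zpow_le_iff hq hA] at h
    rw [le_max_iff, exp_le_exp, exp_le_exp, neg_le_neg_iff, neg_le_neg_iff]
    exact h

theorem vF_apply (hq : q.Prime) (hA : A.LiesOverPrime q) {x : IFd A} (hx : x ≠ 0) :
    vF hq hA x = exp (-ordF hq hA x) := by
  classical
  change (if x = 0 then 0 else exp (-ordF hq hA x)) = _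
  rw [if_neg hx]

theorem vF_eq_iff (hq : q.Prime) (hA : A.LiesOverPrime q) {x : IFd A} (hx : x ≠ 0) {n : ℤ} :
    Vn (vF hq hA) n x ↔ A.valuation (x : L) = A.valuation (q : L) ^ n := by
  unfold Vn
  rw [vF_apply hq hA hx, val_eq hq hA hx]
  constructor
  · intro h
    rw [exp_inj, neg_inj] at h
    rw [h]
  · intro h
    rw [zpow_inj' hq hA h]

theorem vF_lt_one_iff (hq : q.Prime) (hA : A.LiesOverPrime q) (x : IFd A) :
    vF hq hA x < 1 ↔ A.valuation (x : L) < 1 := by
  by_cases hx : x = 0
  · rw [hx, map_zero]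
    have : (((0 : IFd A) : IFd A) : L) = 0 := rfl
    rw [this, map_zero]
    exact ⟨fun _ => zero_lt_one, fun _ => zero_lt_one⟩
  · rw [vF_apply hq hA hx, val_eq hq hA hx, ← exp_zero, exp_lt_exp,
      ← zpow_zero (A.valuation (q : L)),
      (zpow_right_strictAnti₀ (val_q_pos hq) (val_q_lt hA)).lt_iff_gt]
    omega

theorem vF_le_one_iff (hq : q.Prime) (hA : A.LiesOverPrime q) (x : IFd A) :
    vF hq hA x ≤ 1 ↔ A.valuation (x : L) ≤ 1 := by
  by_cases hx : x = 0
  · rw [hx, map_zero]
    have : (((0 : IFd A) : IFd A) : L) = 0 := rfl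
    rw [this, map_zero]
    exact ⟨fun _ => zero_le_one, fun _ => zero_le_one⟩
  · rw [vF_apply hq hA hx, val_eq hq hA hx, ← exp_zero, exp_le_exp,
      ← zpow_zero (A.valuation (q : L)), zpow_le_iff hq hA]
    omega

theorem vn_intCast (hq : q.Prime) (hA : A.LiesOverPrime q) {c : ℤ} (hc : c ≠ 0) :
    Vn (vF hq hA) (padicValInt q c) (c : IFd A) := by
  rw [vF_eq_iff hq hA (by exact_mod_cast hc), zpow_natCast]
  exact N4.val_intCast_eq_padicValInt hq hA hc

end Fermat.Agent.H16.Ram
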