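import Mathlib
import Fermat.Agent.H16.RamVal
import Fermat.Agent.H09.Frey
import Fermat.Agent.Ell.Comp
import Fermat.Agent.H12.LL.RDW2

/-!
# Ramification at multiplicative primes (`p ∤ v_q(Δ)`)
-/

set_option autoImplicit false
set_option linter.unusedSectionVars false
set_option linter.unusedVariables false
set_option linter.style.haveILetI false

noncomputable section

namespace Fermat.Agent.H16.Ram

open WeierstrassCurve WeierstrassCurve.Affine WeierstrassCurve.Affine.Point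
open Fermat.Agent.H08 Fermat.Agent.H09 Fermat.Agent.Ell
open Fermat.Agent.CC (Qb GQ)
open WithZero

/-- node data and a `p`-torsion point reducing to the node -/
theorem exists_data {W : WeierstrassCurve ℤ} (hΔ : W.Δ ≠ 0) {q : ℕ} (hq : q.Prime)
    (hqΔ : (q : ℤ) ∣ W.Δ) (hc₄ : ¬ (q : ℤ) ∣ W.c₄) {A : ValuationSubring Qb}
    (hA : A.LiesOverPrime q) {p : ℕ} (hp : p.Prime) :
    ∃ r t α β : Qb, NodeData A.valuation ((WQ W)⁄Qb) r t α β ∧
      ∃ P : Pts (WQ W), P ≠ 0 ∧ p • P = 0 ∧ A.valuation (px P - r) < 1 := by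
  have hint : IsIntegralFor A.valuation ((WQ W)⁄Qb) := isIntegralFor_of_int (map_WQ W)
  have h0 : ((WQ W)⁄Qb).Δ ≠ 0 := by
    rw [← map_WQ, WeierstrassCurve.map_Δ]; simpa using hΔ
  have h1 : A.valuation ((WQ W)⁄Qb).Δ < 1 := by
    rw [← map_WQ, WeierstrassCurve.map_Δ]; exact H09.val_intCast_lt_one hA hqΔ
  have h2 : A.valuation ((WQ W)⁄Qb).c₄ = 1 := by
    rw [← map_WQ, WeierstrassCurve.map_c₄]; exact H09.val_intCast_eq_one hq hA hc₄
  obtain ⟨r, t, α, β, h⟩ := exists_nodeData hint h0 h1 h2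
  obtain ⟨P, hP, hpP, hnot⟩ := exists_torsion_node h h0 h2 hq hA hp
  rw [nodeE0_iff hP, not_le] at hnot
  exact ⟨r, t, α, β, h, P, hP, hpP, hnot⟩

/-! ### `p = 3` -/

/-- `W[3]` is ramified at a multiplicative prime `q ≠ 3` with `3 ∤ v_q(Δ)`. -/
theorem not_unrAt_three {W : WeierstrassCurve ℤ} (hΔ : W.Δ ≠ 0) {q : ℕ} (hq : q.Prime)
    (hq3 : q ≠ 3) (hqΔ : (q : ℤ) ∣ W.Δ) (hc : ¬ (q : ℤ) ∣ W.c₄)
    (h3 : ¬ 3 ∣ padicValInt q W.Δ) : ¬ H12.LL.UnrAt W 3 q := by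
  intro hun
  haveI := H51.isGalois_Qbar
  obtain ⟨A, hA⟩ := H05.exists_liesOverPrime Qb hq
  obtain ⟨r, t, α, β, h, P, hP, hpP, hlt⟩ := exists_data hΔ hq hqΔ hc hA Nat.prime_three
  set E : WeierstrassCurve Qb := ((WQ W)⁄Qb) with hE
  set W' := shiftCurve E r t with hW'
  set x : Qb := px P - r with hx
  -- the shifted point
  have hs : shiftPt E r t P ≠ 0 := fun h' => hP (shiftPt_eq_zero.mp h')
  have hsx : px (shiftPt E r t P) = x := px_shiftPt hP
  have h3s : 3 • shiftPt E r t P = 0 := by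
    have h4 : shiftHom E r t (3 • P) = 3 • shiftHom E r t P := map_nsmul _ _ _
    rw [hpP] at h4
    have h5 : shiftHom E r t 0 = 0 := _root_.map_zero _
    rw [h5] at h4
    exact h4.symm
  have hΨ : (W'.preΨ' 3).eval x = 0 := by
    have := (smul_eq_zero_iff_eval hs (n := 3) (by decide)).mp h3s
    rwa [xc_eq_px, hsx] at this
  have hΨ3 : 3 * x ^ 4 + W'.b₂ * x ^ 3 + 3 * W'.b₄ * x ^ 2 + 3 * W'.b₆ * x + W'.b₈ = 0 := by
    rw [W'.preΨ'_three] at hΨ
    rw [← hΨ]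
    simp [WeierstrassCurve.Ψ₃]
  have a3 : W'.a₃ = 0 := h.slopes.a₃
  have a4 : W'.a₄ = 0 := h.slopes.a₄
  have eb4 : W'.b₄ = 0 := by rw [WeierstrassCurve.b₄, a3, a4]; ring
  have eb6 : W'.b₆ = 4 * W'.a₆ := by rw [WeierstrassCurve.b₆, a3]; ring
  have eb8 : W'.b₈ = W'.b₂ * W'.a₆ := by
    rw [WeierstrassCurve.b₈, WeierstrassCurve.b₂, a3, a4]; ring
  have eb2 : W'.b₂ = (β - α) ^ 2 := by
    rw [WeierstrassCurve.b₂]
    linear_combination (W'.a₁ - α - β) * h.slopes.sum + 4 * h.slopes.prod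
  have vb2 : A.valuation W'.b₂ = 1 := by rw [eb2, map_pow, h.slopes.diff, one_pow]
  have va6 : A.valuation W'.a₆ = A.valuation (q : Qb) ^ padicValInt q W.Δ := by
    rw [N4.val_a₆_eq_val_Δ h, hE, ← map_WQ, map_Δ]
    exact N4.val_intCast_eq_padicValInt hq hA hΔ
  -- `(b₂ + 3x) x³ = -(b₂ + 12 x) a₆`
  have key : (W'.b₂ + 3 * x) * x ^ 3 = -((W'.b₂ + 12 * x) * W'.a₆) := by
    rw [eb4, eb6, eb8] at hΨ3
    linear_combination hΨ3
  have v1 : A.valuation (W'.b₂ + 3 * x) = 1 := by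
    rw [Valuation.map_add_eq_of_lt_left, vb2]
    rw [vb2]; exact v_mul_lt_one_right (v_ofNat_le_one _ 3) hlt
  have v2 : A.valuation (W'.b₂ + 12 * x) = 1 := by
    rw [Valuation.map_add_eq_of_lt_left, vb2]
    rw [vb2]; exact v_mul_lt_one_right (v_ofNat_le_one _ 12) hlt
  have hval : A.valuation x ^ 3 = A.valuation (q : Qb) ^ padicValInt q W.Δ := by
    have := congrArg A.valuation key
    rw [map_mul, v1, one_mul, Valuation.map_neg, map_mul, v2, one_mul, map_pow, va6] at this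
    exact this
  -- `x` is fixed by inertia
  have hfix : ∀ σ ∈ A.inertiaSubgroupIn ℚ, σ x = x := by
    intro σ hσ
    have h4 := hun A hA σ hσ P hpP
    have h5 : σ (px P) = px P := by rw [← H09.px_smul, h4]
    obtain ⟨h6, -⟩ := node_fixed hσ h
    rw [hx, map_sub, h5, h6]
  have hx0 : x ≠ 0 := by
    intro h0
    rw [h0, _root_.map_zero, zero_pow (by norm_num)] at hval
    exact pow_ne_zero _ (val_q_pos (A := A) hq).ne' hval.symm
  obtain ⟨n, hn⟩ := H12.exists_valuation_eq_zpow hq hA x hx0 hfix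
  rw [hn, ← zpow_natCast, ← zpow_natCast, ← zpow_mul] at hval
  have h7 := zpow_inj' hq hA hval
  apply h3
  have h8 : (3 : ℤ) ∣ (padicValInt q W.Δ : ℤ) := ⟨n, by rw [← h7]; push_cast; ring⟩
  exact_mod_cast h8

/-! ### the Frey curve at `2` -/

/-- The `p`-torsion of the Frey curve is ramified at `2`. -/
theorem not_unrAt_frey (P : FreyPackage) : ¬ H12.LL.UnrAt P.freyCurveInt P.p 2 := by
  classical
  intro hun
  haveI := H51.isGalois_Qbar
  have hq := Nat.prime_two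
  obtain ⟨A, hA⟩ := H05.exists_liesOverPrime Qb hq
  have hΔ0 : P.freyCurveInt.Δ ≠ 0 := Fermat.Agent.H26.freyCurveInt_Δ_ne_zero P
  have hss : P.freyCurveInt.IsSemistableModel :=
    Fermat.Agent.H26.freyCurveInt_isSemistableModel P
  have h2Δ : (2 : ℤ) ∣ P.freyCurveInt.Δ := Fermat.Agent.H26.two_dvd_freyCurveInt_Δ P
  obtain ⟨r, t, α, β, h, P₀, hP, hpP, hlt⟩ := exists_data hΔ0 hq h2Δ (hss 2 hq h2Δ) hA P.pp
  -- the node is close to the origin
  have v2 : A.valuation (2 : Qb) < 1 := val_natCast_lt_one hA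
  have hr : A.valuation r < 1 := by
    have h3 := h.slopes.a₃
    have h4 : (shiftCurve ((WQ P.freyCurveInt)⁄Qb) r t).a₃ = ((WQ P.freyCurveInt)⁄Qb).a₃ + r * ((WQ P.freyCurveInt)⁄Qb).a₁ + 2 * t := rfl
    have h5 : ((WQ P.freyCurveInt)⁄Qb).a₃ = 0 := by
      have : ((WQ P.freyCurveInt)⁄Qb).a₃ = ((0 : ℤ) : Qb) := by
        rw [← map_WQ]; rfl
      rw [this, Int.cast_zero]
    have h6 : ((WQ P.freyCurveInt)⁄Qb).a₁ = 1 := by
      have : ((WQ P.freyCurveInt)⁄Qb).a₁ = ((1 : ℤ) : Qb) := by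
        rw [← map_WQ]; rfl
      rw [this, Int.cast_one]
    rw [h4, h5, h6] at h3
    have h7 : r = -(2 * t) := by linear_combination h3
    rw [h7, Valuation.map_neg, map_mul]
    exact mul_lt_one_of_lt_of_le v2 h.ht
  have hx1 : A.valuation (px P₀) < 1 := by
    have : px P₀ = (px P₀ - r) + r := by ring
    rw [this]
    exact lt_of_le_of_lt (A.valuation.map_add _ _) (max_lt hlt hr)
  -- the point is defined over the inertia field
  have hxF : px P₀ ∈ IFd A := by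
    rw [mem_IFd]
    intro σ hσ
    rw [← H09.px_smul, hun A hA σ hσ P₀ hpP]
  have hyF : py P₀ ∈ IFd A := by
    rw [mem_IFd]
    intro σ hσ
    rw [← H09.py_smul, hun A hA σ hσ P₀ hpP]
  obtain ⟨X, Y, hXY, rfl⟩ := exists_eq_some hP
  rw [px_some] at hxF hx1
  rw [py_some] at hyF
  have hinj : Function.Injective (IFd A).val := (IFd A).val.injective
  have hns : ((WQ P.freyCurveInt)⁄(IFd A)).Nonsingular (⟨X, hxF⟩ : IFd A) (⟨Y, hyF⟩ : IFd A) :=
    (WeierstrassCurve.Affine.baseChange_nonsingular (WQ P.freyCurveInt) hinj _ _).mp hXY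
  let Q : ((WQ P.freyCurveInt)⁄(IFd A)).Point := Point.some _ _ hns
  have hmap : Point.map (W' := WQ P.freyCurveInt) (IFd A).val Q = Point.some _ _ hXY := rfl
  have hpQ : P.p • Q = 0 := by
    apply Point.map_injective (W' := WQ P.freyCurveInt) (IFd A).val
    rw [map_nsmul, hmap, hpP, Point.map_zero]
  have hQ0 : Q ≠ 0 := some_ne_zero _
  -- the valuations
  have hVn2 : Vn (vF hq hA) 1 (2 : IFd A) := by
    have h3 := vn_intCast hq hA (c := 2) (by norm_num)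
    have h4 : padicValInt 2 2 = 1 := by
      have : padicValInt 2 ((2 : ℕ) : ℤ) = 1 := padicValInt.self (by norm_num)
      exact_mod_cast this
    rw [h4] at h3
    exact_mod_cast h3
  have ea1 : ((WQ P.freyCurveInt)⁄(IFd A)).a₁ = 1 := by
    have : ((WQ P.freyCurveInt)⁄(IFd A)).a₁ = algebraMap ℚ (IFd A) ((1 : ℤ) : ℚ) := rfl
    rw [this, Int.cast_one, map_one]
  have ea3 : ((WQ P.freyCurveInt)⁄(IFd A)).a₃ = 0 := by
    have : ((WQ P.freyCurveInt)⁄(IFd A)).a₃ = algebraMap ℚ (IFd A) ((0 : ℤ) : ℚ) := rfl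
    rw [this, Int.cast_zero, _root_.map_zero]
  have ea6 : ((WQ P.freyCurveInt)⁄(IFd A)).a₆ = 0 := by
    have : ((WQ P.freyCurveInt)⁄(IFd A)).a₆ = algebraMap ℚ (IFd A) ((0 : ℤ) : ℚ) := rfl
    rw [this, Int.cast_zero, _root_.map_zero]
  have ea2 : ((WQ P.freyCurveInt)⁄(IFd A)).a₂ = ((P.freyCurveInt.a₂ : ℤ) : IFd A) := by
    have : ((WQ P.freyCurveInt)⁄(IFd A)).a₂ = algebraMap ℚ (IFd A) ((P.freyCurveInt.a₂ : ℤ) : ℚ) := rfl
    rw [this, map_intCast]
  have ea4 : ((WQ P.freyCurveInt)⁄(IFd A)).a₄ = ((P.freyCurveInt.a₄ : ℤ) : IFd A) := by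
    have : ((WQ P.freyCurveInt)⁄(IFd A)).a₄ = algebraMap ℚ (IFd A) ((P.freyCurveInt.a₄ : ℤ) : ℚ) := rfl
    rw [this, map_intCast]
  -- `v(a₄)`
  obtain ⟨m, hm1, hm2, hm3⟩ := frey_a₄ P
  have ha4 : P.freyCurve.a₄ = ((P.freyCurveInt.a₄ : ℤ) : ℚ) := by
    rw [← Fermat.Agent.H26.freyCurveInt_map]; rfl
  have ha40 : P.freyCurveInt.a₄ ≠ 0 := by
    intro h0
    rw [h0, Int.cast_zero] at ha4
    exact hm1.ne_zero ha4
  have hm : m = padicValInt 2 P.freyCurveInt.a₄ := by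
    rw [ha4] at hm1
    unfold Vn at hm1
    have h3 : Rat.padicValuation 2 ((P.freyCurveInt.a₄ : ℤ) : ℚ) =
        if ((P.freyCurveInt.a₄ : ℤ) : ℚ) = 0 then 0 else
          exp (-padicValRat 2 ((P.freyCurveInt.a₄ : ℤ) : ℚ)) := rfl
    rw [h3, if_neg (by exact_mod_cast ha40), exp_inj, neg_inj, padicValRat.of_int] at hm1
    exact hm1.symm
  have hV4 : Vn (vF hq hA) m ((WQ P.freyCurveInt)⁄(IFd A)).a₄ := by
    rw [ea4, hm]
    exact vn_intCast hq hA ha40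
  have hD2 : Dn (vF hq hA) 0 ((WQ P.freyCurveInt)⁄(IFd A)).a₂ := by
    rw [Dn_zero_iff, ea2, vF_le_one_iff]
    have : ((((P.freyCurveInt.a₂ : ℤ) : IFd A)) : Qb) = ((P.freyCurveInt.a₂ : ℤ) : Qb) := by
      push_cast; rfl
    rw [this]
    exact H09.val_intCast_le_one A _
  rcases inE0_of_torsion (v := vF hq hA) (W := ((WQ P.freyCurveInt)⁄(IFd A))) hVn2.toD ea1 ea3 ea6 hD2 hV4 hm2 P.pp
    P.hp5 hm3 hQ0 hpQ with h3 | h3
  · exact hQ0 h3
  · have h4 : px Q = (⟨X, hxF⟩ : IFd A) := rfl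
    rw [h4] at h3
    have h5 : vF hq hA (⟨X, hxF⟩ : IFd A) < 1 := (vF_lt_one_iff hq hA _).mpr hx1
    exact absurd h3 (not_le.mpr h5)

end Fermat.Agent.H16.Ram
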